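/-
S15lib / U1 / Marked  (helper9) — Project E, block (U1)(B).

**Marked Belyi theorem.**  `K` algebraically closed, algebraic over `ℚ`; `F / K` a function field
in one variable (`IsCov K x`); `M` a finite set of places.  Then some covering function `β` has
finite branch values in `{0, 1}` and a ZERO at every place of `M`.

This is a re-run of `S27lib/Belyi/StepA, StepB` that carries along the values of the running
function at the marked places: every step is a polynomial substitution `y ↦ m(y)`, under which
the value `a` at a marked place becomes `m(a)`; the tracked finite set `S` contains the branch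
values AND the marked values.  At the end all tracked values are in `{0, 1}`, and
`β = 4 β₀ (1 - β₀)` sends `{0, 1}` to `0` with only new critical value `1`.
-/
import Mathlib
import Fermat.Agent.S27lib.Belyi.StepB

set_option autoImplicit false
set_option linter.style.haveILetI false
set_option linter.unusedSectionVars false

noncomputable section

namespace Fermat.Agent.S15lib.U1

open AlgebraicCurve Polynomial IntermediateField
open Fermat.Agent.ProgramR Fermat.Agent.ProgramR.RHLocal Fermat.Agent.S18lib
open Fermat.Agent.S27lib.Belyi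

variable {K : Type*} [Field K] {F : Type*} [Field F] [Algebra K F]

/-- the state of the marked Belyi induction: `y` is a covering function, `S` contains its finite
branch values and its values at the marked places (all of which are regular for `y`) -/
structure St (M : Finset (Place K F)) (y : F) (S : Finset K) : Prop where
  cov : IsCov K y
  br : BranchSet K y ⊆ S
  val : ∀ P ∈ M, ∃ a ∈ S, 0 < P.ord (y - algebraMap K F a)

theorem St.mono {M : Finset (Place K F)} {y : F} {S S' : Finset K} (h : St M y S)
    (hS : S ⊆ S') : St M y S' where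
  cov := h.cov
  br := fun a ha => Finset.mem_coe.2 (hS (Finset.mem_coe.1 (h.br ha)))
  val := fun P hP => by
    obtain ⟨a, ha, hP'⟩ := h.val P hP
    exact ⟨a, hS ha, hP'⟩

/-- the value of `m(y)` at a place where `y` has the value `a` is `m(a)` -/
theorem ord_aeval_sub_pos (P : Place K F) {y : F} {a : K}
    (hP : 0 < P.ord (y - algebraMap K F a)) (m : K[X]) (hm : 0 < m.natDegree) :
    0 < P.ord (aeval y m - algebraMap K F (m.eval a)) := by
  have hmne : m - C (m.eval a) ≠ 0 := by
    intro h0
    have : (m - C (m.eval a)).natDegree = m.natDegree := natDegree_sub_C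
    rw [h0, natDegree_zero] at this
    omega
  rw [ord_aeval_sub P hP hmne]
  have hμpos : 0 < (m - C (m.eval a)).rootMultiplicity a := by
    rw [rootMultiplicity_pos hmne, IsRoot.def, eval_sub, eval_C, sub_self]
  have : (0 : ℤ) < ((m - C (m.eval a)).rootMultiplicity a : ℤ) := by exact_mod_cast hμpos
  positivity

section AlgClosed

variable [IsAlgClosed K] [CharZero K]

/-- polynomial substitution -/
theorem St.aeval [DecidableEq K] {M : Finset (Place K F)} {y : F} {S : Finset K}
    (h : St M y S) (m : K[X]) (hm : 0 < m.natDegree) :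
    St M (Polynomial.aeval y m)
      ((S.image fun a => m.eval a) ∪ (m.derivative.roots.toFinset.image fun a => m.eval a)) where
  cov := h.cov.aeval m hm
  br := h.cov.branchSet_aeval_subset m hm S h.br
  val := by
    intro P hP
    obtain ⟨a, haS, ha⟩ := h.val P hP
    exact ⟨m.eval a, Finset.mem_union_left _ (Finset.mem_image_of_mem _ haS),
      ord_aeval_sub_pos P ha m hm⟩

/-- the initial state: after an inversion `y = 1/(x - c)` all marked places are regular -/
theorem exists_st_init {x : F} (hx : IsCov K x) (M : Finset (Place K F)) :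
    ∃ (y : F) (S : Finset K), St M y S := by
  classical
  haveI := hx.finite
  haveI : Infinite K := Infinite.of_injective _ (Nat.cast_injective (R := K))
  -- the values of `x` at the marked places where `x` is regular
  have hval : ∀ P : Place K F, ∃ a : K, 0 ≤ P.ord x → 0 < P.ord (x - algebraMap K F a) := by
    intro P
    by_cases h : 0 ≤ P.ord x
    · obtain ⟨a, ha⟩ := exists_value_of_transcendental x P h hx.transcendental
      exact ⟨a, fun _ => ha⟩
    · exact ⟨0, fun h' => absurd h' h⟩
  choose v hv using hval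
  obtain ⟨c, hc⟩ := Infinite.exists_notMem_finset (M.image v)
  have hxc : Transcendental K (x - algebraMap K F c) := by
    intro halg
    apply hx.transcendental
    have := halg.add (isAlgebraic_algebraMap (R := K) (A := F) c)
    rwa [sub_add_cancel] at this
  have hxc0 : x - algebraMap K F c ≠ 0 := by
    intro h0
    rw [h0] at hxc
    exact hxc (isAlgebraic_zero)
  set y := (x - algebraMap K F c)⁻¹ with hy
  have hytr : Transcendental K y := by
    intro halg
    apply hxc
    have := halg.inv
    rwa [hy, inv_inv] at this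
  have hycov : IsCov K y := ⟨hytr, RHLocal.finiteDimensional_adjoin_of_transcendental (x := x) hytr⟩
  -- `y` is regular at the marked places
  have hreg : ∀ P ∈ M, 0 ≤ P.ord y := by
    intro P hP
    rw [hy, Place.ord_inv]
    by_cases h : 0 ≤ P.ord x
    · have h1 := hv P h
      have hne : v P ≠ c := fun h => hc (h ▸ Finset.mem_image_of_mem v hP)
      have h2 : ¬ 0 < P.ord (x - algebraMap K F c) := fun h2 => hne (eq_of_ord_sub_pos h1 h2)
      omega
    · have := Tame.ord_sub_const_of_neg P c (not_le.mp h)
      omega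
  have hval' : ∀ P : Place K F, ∃ a : K, P ∈ M → 0 < P.ord (y - algebraMap K F a) := by
    intro P
    by_cases h : P ∈ M
    · obtain ⟨a, ha⟩ := exists_value_of_transcendental x P (hreg P h) hytr
      exact ⟨a, fun _ => ha⟩
    · exact ⟨0, fun h' => absurd h' h⟩
  choose w hw using hval'
  refine ⟨y, hycov.branchSet_finite.toFinset ∪ M.image w, hycov, ?_, ?_⟩
  · intro a ha
    rw [Finset.mem_coe, Finset.mem_union, Set.Finite.mem_toFinset]
    exact Or.inl ha
  · intro P hP
    exact ⟨w P, Finset.mem_union_right _ (Finset.mem_image_of_mem w hP), hw P hP⟩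

/-! ### Step A: all tracked values rational -/

section Reduce

variable [Algebra.IsAlgebraic ℚ K]

/-- Inner induction: lower the number of tracked values of maximal degree `N + 2`. -/
theorem exists_st_degQ_le (M : Finset (Place K F)) (N : ℕ) : ∀ (c : ℕ) (y : F) (S : Finset K)
    (_ : St M y S) (_ : ∀ s ∈ S, degQ s ≤ N + 2)
    (_ : (S.filter fun s => degQ s = N + 2).card ≤ c),
    ∃ (y' : F) (S' : Finset K), St M y' S' ∧ ∀ s ∈ S', degQ s ≤ N + 1 := by
  classical
  intro c
  induction c with
  | zero =>
    intro y S hS hdeg hc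
    refine ⟨y, S, hS, fun s hs => ?_⟩
    have h1 := hdeg s hs
    by_contra hlt
    have h2 : degQ s = N + 2 := by omega
    have : s ∈ S.filter fun s => degQ s = N + 2 := Finset.mem_filter.mpr ⟨hs, h2⟩
    have hpos : 0 < (S.filter fun s => degQ s = N + 2).card := Finset.card_pos.mpr ⟨s, this⟩
    omega
  | succ c ih =>
    intro y S hS hdeg hc
    by_cases hex : ∃ a ∈ S, degQ a = N + 2
    swap
    · push Not at hex
      refine ⟨y, S, hS, fun s hs => ?_⟩
      have h1 := hdeg s hs
      have h2 := hex s hs
      omega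
    obtain ⟨a, haS, hadeg⟩ := hex
    set p : K[X] := (minpoly ℚ a).map (algebraMap ℚ K) with hp
    have hmonic : (minpoly ℚ a).Monic := minpoly.monic (isIntegral_rat a)
    have hpdeg : p.natDegree = N + 2 := by
      rw [hp, hmonic.natDegree_map]; exact hadeg
    have hp0 : 0 < p.natDegree := by omega
    have hpa : p.eval a = 0 := by
      rw [hp, Polynomial.eval_map_algebraMap]; exact minpoly.aeval ℚ a
    set S' : Finset K := (S.image fun s => p.eval s) ∪
      (p.derivative.roots.toFinset.image fun s => p.eval s) with hS'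
    have hsub : St M (Polynomial.aeval y p) S' := hS.aeval p hp0
    have hne : p.derivative ≠ 0 := by
      rw [Polynomial.derivative_ne_zero]; omega
    -- degrees in `S'`
    have hcrit : ∀ β ∈ p.derivative.roots.toFinset, degQ (p.eval β) ≤ N + 1 := by
      intro β hβ
      rw [Multiset.mem_toFinset, Polynomial.mem_roots hne] at hβ
      have h1 := degQ_lt_of_isRoot_derivative a hβ
      have h2 := degQ_eval_map_le β (minpoly ℚ a)
      rw [← hp] at h2
      omega
    have hdeg' : ∀ s ∈ S', degQ s ≤ N + 2 := by
      intro s hs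
      rw [hS', Finset.mem_union, Finset.mem_image, Finset.mem_image] at hs
      rcases hs with ⟨s0, hs0, rfl⟩ | ⟨β, hβ, rfl⟩
      · have h2 := degQ_eval_map_le s0 (minpoly ℚ a)
        rw [← hp] at h2
        have := hdeg s0 hs0
        omega
      · have := hcrit β hβ
        omega
    -- the elements of top degree in `S'` come from elements of top degree in `S` other than `a`
    have hfilter : (S'.filter fun s => degQ s = N + 2) ⊆
        (((S.filter fun s => degQ s = N + 2).erase a).image fun s => p.eval s) := by
      intro s hs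
      rw [Finset.mem_filter] at hs
      obtain ⟨hs1, hs2⟩ := hs
      rw [hS', Finset.mem_union, Finset.mem_image, Finset.mem_image] at hs1
      rcases hs1 with ⟨s0, hs0, rfl⟩ | ⟨β, hβ, rfl⟩
      · rw [Finset.mem_image]
        refine ⟨s0, ?_, rfl⟩
        rw [Finset.mem_erase, Finset.mem_filter]
        refine ⟨?_, hs0, ?_⟩
        · rintro rfl
          rw [hpa] at hs2
          have h0 : degQ (0 : K) ≤ 1 := by
            unfold degQ; rw [minpoly.zero]; simp
          omega
        · have h2 := degQ_eval_map_le s0 (minpoly ℚ a)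
          rw [← hp] at h2
          have := hdeg s0 hs0
          omega
      · have := hcrit β hβ
        omega
    have hcard : (S'.filter fun s => degQ s = N + 2).card ≤ c := by
      have h1 := Finset.card_le_card hfilter
      have h2 := Finset.card_image_le (s := (S.filter fun s => degQ s = N + 2).erase a)
        (f := fun s => p.eval s)
      have h3 : a ∈ S.filter fun s => degQ s = N + 2 := Finset.mem_filter.mpr ⟨haS, hadeg⟩
      have h4 := Finset.card_erase_add_one h3
      omega
    exact ih (Polynomial.aeval y p) S' hsub hdeg' hcard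

/-- Outer induction: all tracked values can be made of degree at most one. -/
theorem exists_st_degQ_le_one (M : Finset (Place K F)) : ∀ (N : ℕ) (y : F) (S : Finset K)
    (_ : St M y S) (_ : ∀ s ∈ S, degQ s ≤ N + 1),
    ∃ (y' : F) (S' : Finset K), St M y' S' ∧ ∀ s ∈ S', degQ s ≤ 1 := by
  intro N
  induction N with
  | zero =>
    intro y S hS hdeg
    exact ⟨y, S, hS, fun s hs => by simpa using hdeg s hs⟩
  | succ N ih =>
    intro y S hS hdeg
    obtain ⟨y', S', hS', hdeg'⟩ :=
      exists_st_degQ_le M N _ y S hS (fun s hs => by have := hdeg s hs; omega) le_rfl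
    exact ih y' S' hS' hdeg'

/-- **Marked Belyi, first step.**  Some state has only rational tracked values. -/
theorem exists_st_rat [DecidableEq K] {x : F} (hx : IsCov K x) (M : Finset (Place K F)) :
    ∃ (y : F) (T : Finset ℚ), St M y (T.image (algebraMap ℚ K)) := by
  classical
  obtain ⟨y₀, S₀, h₀⟩ := exists_st_init hx M
  obtain ⟨y, S, hS, hdeg⟩ := exists_st_degQ_le_one M (S₀.sup degQ) y₀ S₀ h₀
    (fun s hs => by have := Finset.le_sup (f := degQ) hs; omega)
  have hchoice : ∀ a ∈ S, ∃ s : ℚ, algebraMap ℚ K s = a := fun a ha =>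
    mem_range_of_degQ_le_one (hdeg a ha)
  choose! g hg using hchoice
  refine ⟨y, S.image g, hS.mono ?_⟩
  intro a ha
  rw [Finset.mem_image]
  exact ⟨g a, Finset.mem_image_of_mem g ha, hg a ha⟩

end Reduce

/-! ### Step B: all tracked values in `{0, 1}` -/

section StepB

variable [DecidableEq K] {M : Finset (Place K F)}

/-- Substituting a polynomial with rational coefficients whose critical points lie in `T`. -/
theorem St.aeval_rat {y : F} {T : Finset ℚ} (h : St M y (T.image (algebraMap ℚ K))) (q : ℚ[X])
    (hq : 0 < q.natDegree)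
    (hcrit : ∀ β : K, (q.map (algebraMap ℚ K)).derivative.IsRoot β →
      ∃ s ∈ T, algebraMap ℚ K s = β) :
    St M (Polynomial.aeval y (q.map (algebraMap ℚ K)))
      ((T.image fun s => q.eval s).image (algebraMap ℚ K)) := by
  have hq' : 0 < (q.map (algebraMap ℚ K)).natDegree := by
    rw [Polynomial.natDegree_map]; exact hq
  refine (h.aeval _ hq').mono ?_
  have hne : (q.map (algebraMap ℚ K)).derivative ≠ 0 := by
    rw [Polynomial.derivative_ne_zero]; omega
  intro b hb
  rw [Finset.mem_union, Finset.mem_image, Finset.mem_image] at hb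
  rcases hb with ⟨a, ha, rfl⟩ | ⟨a, ha, rfl⟩
  · rw [Finset.mem_image] at ha
    obtain ⟨s, hs, rfl⟩ := ha
    rw [Finset.mem_image]
    exact ⟨q.eval s, Finset.mem_image_of_mem _ hs,
      (Polynomial.eval_map_apply (algebraMap ℚ K) s).symm⟩
  · rw [Multiset.mem_toFinset, Polynomial.mem_roots hne] at ha
    obtain ⟨s, hs, rfl⟩ := hcrit a ha
    rw [Finset.mem_image]
    exact ⟨q.eval s, Finset.mem_image_of_mem _ hs,
      (Polynomial.eval_map_apply (algebraMap ℚ K) s).symm⟩

/-- Affine substitutions. -/
theorem St.aeval_affine {y : F} {T : Finset ℚ} (h : St M y (T.image (algebraMap ℚ K)))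
    (u v : ℚ) (hu : u ≠ 0) :
    St M (Polynomial.aeval y ((C u * X + C v : ℚ[X]).map (algebraMap ℚ K)))
      ((T.image fun s => u * s + v).image (algebraMap ℚ K)) := by
  have hdeg : (C u * X + C v : ℚ[X]).natDegree = 1 := Polynomial.natDegree_linear hu
  have h' := h.aeval_rat (C u * X + C v) (by omega) (by
    intro β hβ
    exfalso
    rw [Polynomial.derivative_map, IsRoot.def] at hβ
    simp at hβ
    exact hu hβ)
  have himg : (T.image fun s => (C u * X + C v : ℚ[X]).eval s) = T.image fun s => u * s + v := by
    refine Finset.image_congr (fun s _ => ?_)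
    simp
  rw [himg] at h'
  exact h'

/-- Base case: at most two rational tracked values. -/
theorem exists_st_zero_one_of_card_le_two {y : F} (T : Finset ℚ) (hcard : T.card ≤ 2)
    (h : St M y (T.image (algebraMap ℚ K))) :
    ∃ y' : F, St M y' ({0, 1} : Finset K) := by
  -- `T ⊆ {s₀, s₁}` with `s₀ ≠ s₁`
  obtain ⟨s₀, s₁, hne, hsub⟩ : ∃ s₀ s₁ : ℚ, s₀ ≠ s₁ ∧ T ⊆ {s₀, s₁} := by
    rcases Nat.lt_or_ge T.card 2 with h | h
    · rcases Nat.lt_or_ge T.card 1 with h' | h'
      · have : T = ∅ := Finset.card_eq_zero.mp (by omega)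
        exact ⟨0, 1, by norm_num, by rw [this]; exact Finset.empty_subset _⟩
      · obtain ⟨s, hs⟩ := Finset.card_eq_one.mp (show T.card = 1 by omega)
        refine ⟨s, s + 1, by simp, ?_⟩
        rw [hs]
        intro t ht
        rw [Finset.mem_singleton] at ht
        simp [ht]
    · obtain ⟨s₀, s₁, hne, hs⟩ := Finset.card_eq_two.mp (show T.card = 2 by omega)
      exact ⟨s₀, s₁, hne, by rw [hs]⟩
  have hd : s₁ - s₀ ≠ 0 := sub_ne_zero.mpr (Ne.symm hne)
  have h' := h.aeval_affine (1 / (s₁ - s₀)) (-s₀ / (s₁ - s₀)) (one_div_ne_zero hd)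
  refine ⟨_, h'.mono ?_⟩
  intro b hb
  rw [Finset.mem_image] at hb
  obtain ⟨r, hr, rfl⟩ := hb
  rw [Finset.mem_image] at hr
  obtain ⟨s, hs, rfl⟩ := hr
  have := hsub hs
  rw [Finset.mem_insert, Finset.mem_singleton] at this
  rw [Finset.mem_insert, Finset.mem_singleton]
  rcases this with rfl | rfl
  · left
    have : 1 / (s₁ - s) * s + -s / (s₁ - s) = 0 := by field_simp; ring
    rw [this, map_zero]
  · right
    have : 1 / (s - s₀) * s + -s₀ / (s - s₀) = 1 := by field_simp; ring
    rw [this, map_one]

/-- Belyi step: three or more rational tracked values can be reduced in number. -/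
theorem exists_st_card_lt {y : F} (T : Finset ℚ) (hcard : 3 ≤ T.card)
    (hT : St M y (T.image (algebraMap ℚ K))) :
    ∃ (y' : F) (T' : Finset ℚ), T'.card < T.card ∧ St M y' (T'.image (algebraMap ℚ K)) := by
  have hne : T.Nonempty := Finset.card_pos.mp (by omega)
  set s₀ := T.min' hne with hs₀
  set s₂ := T.max' hne with hs₂
  have h02 : s₀ < s₂ := Finset.min'_lt_max'_of_card T (by omega)
  have hs₀T : s₀ ∈ T := Finset.min'_mem T hne
  have hs₂T : s₂ ∈ T := Finset.max'_mem T hne
  -- a third point
  obtain ⟨s₁, hs₁T, hs₁⟩ : ∃ s₁ ∈ T, s₁ ∉ ({s₀, s₂} : Finset ℚ) := by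
    refine Finset.exists_mem_notMem_of_card_lt_card ?_
    have := Finset.card_le_two (a := s₀) (b := s₂)
    omega
  rw [Finset.mem_insert, Finset.mem_singleton, not_or] at hs₁
  have h01 : s₀ < s₁ := lt_of_le_of_ne (Finset.min'_le T s₁ hs₁T) (Ne.symm hs₁.1)
  have h12 : s₁ < s₂ := lt_of_le_of_ne (Finset.le_max' T s₁ hs₁T) hs₁.2
  have hd : s₂ - s₀ ≠ 0 := by linarith
  have hdpos : 0 < s₂ - s₀ := by linarith
  -- affine normalisation
  set u : ℚ := 1 / (s₂ - s₀) with hu
  set v : ℚ := -s₀ / (s₂ - s₀) with hv
  have hbr₁ := hT.aeval_affine u v (one_div_ne_zero hd)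
  set T₁ : Finset ℚ := T.image fun s => u * s + v with hT₁
  have hT₁card : T₁.card ≤ T.card := Finset.card_image_le
  have h0T₁ : (0 : ℚ) ∈ T₁ := by
    rw [hT₁, Finset.mem_image]
    refine ⟨s₀, hs₀T, ?_⟩
    rw [hu, hv]; field_simp; ring
  have h1T₁ : (1 : ℚ) ∈ T₁ := by
    rw [hT₁, Finset.mem_image]
    refine ⟨s₂, hs₂T, ?_⟩
    rw [hu, hv]; field_simp; ring
  set l : ℚ := u * s₁ + v with hl
  have hlT₁ : l ∈ T₁ := by
    rw [hT₁, Finset.mem_image]; exact ⟨s₁, hs₁T, rfl⟩
  have hl_eq : l = (s₁ - s₀) / (s₂ - s₀) := by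
    rw [hl, hu, hv]; field_simp; ring
  have hl0 : 0 < l := by
    rw [hl_eq]; exact div_pos (by linarith) hdpos
  have hl1 : l < 1 := by
    rw [hl_eq, div_lt_one hdpos]; linarith
  obtain ⟨a, b, hab⟩ := exists_nat_eq_div hl0 hl1
  -- the Belyi polynomial
  have hq : 0 < (belyiPoly ℚ a b).natDegree := natDegree_belyiPoly_pos a b
  have hbr₂ := hbr₁.aeval_rat (belyiPoly ℚ a b) hq (by
    intro β hβ
    rw [belyiPoly_map] at hβ
    rcases isRoot_derivative_belyiPoly a b hβ with rfl | rfl | rfl
    · exact ⟨0, h0T₁, map_zero _⟩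
    · exact ⟨1, h1T₁, map_one _⟩
    · refine ⟨l, hlT₁, ?_⟩
      rw [hab]
      simp [map_div₀])
  refine ⟨_, T₁.image fun s => (belyiPoly ℚ a b).eval s, ?_, hbr₂⟩
  have hlt : (T₁.image fun s => (belyiPoly ℚ a b).eval s).card < T₁.card := by
    refine lt_of_le_of_ne Finset.card_image_le (fun heq => ?_)
    have hinj := Finset.card_image_iff.mp heq
    have := hinj (Finset.mem_coe.mpr h0T₁) (Finset.mem_coe.mpr h1T₁)
      (by simp only [eval_zero_belyiPoly, eval_one_belyiPoly])
    exact zero_ne_one this
  omega

/-- Induction on the number of rational tracked values. -/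
theorem exists_st_zero_one_of_card_le : ∀ (n : ℕ) (y : F) (T : Finset ℚ)
    (_ : T.card ≤ n) (_ : St M y (T.image (algebraMap ℚ K))),
    ∃ y' : F, St M y' ({0, 1} : Finset K) := by
  intro n
  induction n with
  | zero =>
    intro y T hcard hT
    exact exists_st_zero_one_of_card_le_two T (by omega) hT
  | succ n ih =>
    intro y T hcard hT
    by_cases h2 : T.card ≤ 2
    · exact exists_st_zero_one_of_card_le_two T h2 hT
    · obtain ⟨y', T', hlt, hT'⟩ := exists_st_card_lt T (by omega) hT
      exact ih y' T' (by omega) hT'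

end StepB

/-! ### the marked Belyi theorem -/

/-- **Marked Belyi theorem** in function-field form: over an algebraically closed field
algebraic over `ℚ`, for every finite set `M` of places of a function field of one variable there
is a covering function `β` whose finite branch values lie in `{0, 1}` and which vanishes at every
place of `M`. -/
theorem exists_marked_belyi [Algebra.IsAlgebraic ℚ K] {x : F} (hx : IsCov K x)
    (M : Finset (Place K F)) :
    ∃ β : F, IsCov K β ∧ BranchSet K β ⊆ {0, 1} ∧ ∀ P ∈ M, 0 < P.ord β := by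
  classical
  obtain ⟨y, T, hT⟩ := exists_st_rat hx M
  obtain ⟨β₀, h₀⟩ := exists_st_zero_one_of_card_le _ y T le_rfl hT
  haveI := h₀.cov.finite
  -- `m = 4 X (1 - X)`
  set m : K[X] := C 4 * X * (1 - X) with hm
  have hmeval : ∀ a : K, m.eval a = 4 * a * (1 - a) := fun a => by simp [hm]
  have hder : m.derivative = C 4 - C 8 * X := by
    rw [hm]
    simp only [derivative_mul, derivative_C, derivative_X, derivative_sub, derivative_one]
    have : (C 8 : K[X]) = C 4 + C 4 := by rw [← C_add]; norm_num
    rw [this]
    ring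
  have hdeg : m.natDegree = 2 := by
    have h1 : m = C (-4) * X ^ 2 + C 4 * X + C 0 := by
      rw [hm]; simp only [map_neg, C_0]; ring
    rw [h1]
    exact natDegree_quadratic (by norm_num)
  have hm0 : 0 < m.natDegree := by omega
  have h01 : ∀ a ∈ ({0, 1} : Finset K), m.eval a = 0 := by
    intro a ha
    rw [Finset.mem_insert, Finset.mem_singleton] at ha
    rcases ha with rfl | rfl <;> simp [hmeval]
  refine ⟨Polynomial.aeval β₀ m, h₀.cov.aeval m hm0, ?_, ?_⟩
  · intro b hb
    rcases Fermat.Agent.S27lib.Belyi.branchSet_aeval_subset h₀.cov.transcendental m hm0 hb with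
      ⟨a, ha, rfl⟩ | ⟨a, ha, rfl⟩
    · left
      exact h01 a (Finset.mem_coe.1 (h₀.br ha))
    · right
      rw [Set.mem_singleton_iff]
      have ha' : m.derivative.IsRoot a := ha
      rw [hder, IsRoot.def, eval_sub, eval_C, eval_mul, eval_C, eval_X] at ha'
      have h2 : a = 1 / 2 := by
        have h8 : (8 : K) ≠ 0 := by norm_num
        field_simp
        linear_combination -(1 / 4 : K) * ha'
      show m.eval a = 1
      rw [hmeval, h2]
      norm_num
  · intro P hP
    obtain ⟨a, ha, hPa⟩ := h₀.val P hP
    have h1 := ord_aeval_sub_pos P hPa m hm0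
    rwa [h01 a ha, map_zero, sub_zero] at h1

end AlgClosed

/-- **(U1)(B)**: the marked Belyi theorem over `ℚ̄`, in the shape of helper7's
`U1.MarkedBelyiStmt` (`S15lib/U1/Pack.lean`). -/
theorem markedBelyi_Qb :
    ∀ (F : Type) [Field F] [Algebra (AlgebraicClosure ℚ) F] (x : F),
      IsCov (AlgebraicClosure ℚ) x → ∀ M : Finset (Place (AlgebraicClosure ℚ) F),
        ∃ β : F, IsCov (AlgebraicClosure ℚ) β ∧ BranchSet (AlgebraicClosure ℚ) β ⊆ {0, 1} ∧
          ∀ P ∈ M, 0 < P.ord β := by
  intro F _ _ x hx M
  haveI : Algebra.IsAlgebraic ℚ (AlgebraicClosure ℚ) := AlgebraicClosure.isAlgebraic ℚ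
  exact exists_marked_belyi hx M

end Fermat.Agent.S15lib.U1
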