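/-
S15lib / U1 / Iface (helper1).

**(U1)**: `Pic⁰` of a function field of one variable over `ℚ̄` is divisible.  The working statement
is `BelyiDivAt K n`: on a function field `F / K` carrying a Belyi function `β` (finite branch values
in `{0, 1}`), every divisor of degree zero supported on the zeros of `β` is, modulo `n`, the divisor
of a function.  Chain (as for S27, `S27lib/T1/Short`):

  `BelyiDivAt ℂ n`  (analytic core: characters of `Γ` with prescribed parabolic values, `U1/OverC`)
   ⇒(Steinitz `TC`, transport `Tσ`)  `BelyiDivAt (Germ U₀ ℚ̄) n`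
   ⇒(diagonal descent `TD`)          `BelyiDivAt ℚ̄ n`
   ⇒(marked Belyi)                    `Pic⁰(F)` is `n`-divisible for every function field `F / ℚ̄`.
-/
import Mathlib
import Fermat.Agent.S27lib.Belyi.StepB

set_option autoImplicit false

noncomputable section

namespace Fermat.Agent.S15lib.U1

open AlgebraicCurve Fermat.Agent.S27lib

universe u v

/-- **the working statement of (U1)**: degree zero divisors supported on the zeros of a Belyi
function are divisible by `n` modulo principal divisors. -/
def BelyiDivAt (K : Type u) [Field K] (n : ℕ) : Prop :=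
  ∀ (F : Type v) [Field F] [Algebra K F] (β : F), Belyi.IsCov K β →
    Belyi.BranchSet K β ⊆ {0, 1} →
    ∀ D : Divisor K F, Divisor.degree D = 0 → (∀ P : Place K F, D P ≠ 0 → 0 < P.ord β) →
      ∃ f : F, f ≠ 0 ∧ ∀ P : Place K F, (n : ℤ) ∣ D P - P.ord f

end Fermat.Agent.S15lib.U1

end
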