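/-
S15lib / U1 / Transport  (helper7)  — Project E, block (U1), step (T)

Transport of `BelyiDivAt` along ring isomorphisms of the base field (copy of helper6's
`S27lib/Tsig/Transport` for `BelyiCountAt`, on helper9's `BR.Transport`), and Steinitz:
`BelyiDivAt ℂ n` gives `BelyiDivAt (Germ U ℚ̄) n` for an ultrapower of `ℚ̄` isomorphic to `ℂ`.
-/
import Mathlib
import Fermat.Agent.S15lib.U1.Iface
import Fermat.Agent.S27lib.Tsig.Transport
import Fermat.Agent.S27lib.BR.Divisors
import Fermat.Agent.S27lib.TC.Steinitz

set_option autoImplicit false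
set_option linter.style.haveILetI false
set_option linter.unusedSectionVars false

noncomputable section

namespace Fermat.Agent.S15lib.U1

open AlgebraicCurve IntermediateField Fermat.Agent.S18lib Fermat.Agent.S27lib
open Fermat.Agent.S27lib.BR Fermat.Agent.S27lib.Tsig

universe u v u' w

variable {K : Type u} {K' : Type u'} [Field K] [Field K']

/-- **(Tσ)** transport of `BelyiDivAt` along a ring isomorphism of the base fields (and a universe
lift of the function fields) -/
theorem belyiDivAt_of_ringEquiv (σ : K ≃+* K') {n : ℕ}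
    (h : BelyiDivAt.{u', max v w} K' n) : BelyiDivAt.{u, v} K n := by
  intro F _ _ β hβ hbr D hD hsupp
  letI := liftAlgebra.{u, v, u', w} σ F
  have comm := liftAlgebra_comm.{u, v, u', w} σ F
  set e : F ≃+* ULift.{w} F := ULift.ringEquiv.symm with he
  have hbr' : Belyi.BranchSet K' (e β) ⊆ {0, 1} := by
    intro a' ha'
    obtain ⟨a, ha, rfl⟩ := branchSet_map_subset σ e comm β ha'
    rcases hbr ha with h0 | h1
    · left
      rw [h0, map_zero]
    · right
      rw [Set.mem_singleton_iff] at h1 ⊢
      rw [h1, map_one]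
  have hsupp' : ∀ P' : Place K' (ULift.{w} F),
      Transport.divEquiv σ e comm D P' ≠ 0 → 0 < P'.ord (e β) := by
    intro P' hP'
    rw [Transport.divEquiv_apply] at hP'
    rw [← Transport.ord_placeEquiv_symm σ e comm P' β]
    exact hsupp _ hP'
  obtain ⟨f', hf'0, hdiv⟩ := h (ULift.{w} F) (e β) (isCov_map σ e comm hβ) hbr'
    (Transport.divEquiv σ e comm D) (by rw [Transport.degree_divEquiv, hD]) hsupp'
  refine ⟨e.symm f', fun h0 => hf'0 ?_, fun P => ?_⟩
  · rw [← e.apply_symm_apply f', h0, map_zero]
  · have h1 := hdiv (Transport.placeMap σ e comm P)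
    have h2 : (Transport.placeMap σ e comm P).ord f' = P.ord (e.symm f') := by
      rw [← Transport.ord_placeMap σ e comm P (e.symm f'), e.apply_symm_apply]
    rw [Transport.divEquiv_apply_placeMap, h2] at h1
    exact h1

/-- same universe for the function fields -/
theorem belyiDivAt_of_ringEquiv' (σ : K ≃+* K') {n : ℕ}
    (h : BelyiDivAt.{u', v} K' n) : BelyiDivAt.{u, v} K n :=
  belyiDivAt_of_ringEquiv.{u, v, u', v} σ h

local notation "Qb" => AlgebraicClosure ℚ

/-- **(T)** Steinitz: the working statement over `ℂ` gives it over an ultrapower of `ℚ̄` -/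
theorem exists_belyiDivAt_germ {n : ℕ} (h : BelyiDivAt.{0, 0} ℂ n) :
    ∃ (I : Type) (U : Ultrafilter I), BelyiDivAt.{0, 0} ((U : Filter I).Germ Qb) n := by
  obtain ⟨I, U, ⟨σ⟩⟩ := TC.exists_ringEquiv_complex
  exact ⟨I, U, belyiDivAt_of_ringEquiv' σ.symm h⟩

end Fermat.Agent.S15lib.U1
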