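/-
S15lib / U1 / Pack  (helper7)  — Project E, block (U1), step (P)

Packaging of (U1):  `BelyiDivAt ℂ n`  (helper1's analytic core)  and  `MarkedBelyiStmt`  (Belyi functions
vanishing on a given finite set of places, over `ℚ̄`)  give  `Weil.DivisibleAt ℚ̄ n`:  `Pic⁰` of every
function field of one variable over `ℚ̄` is `n`-divisible.

  `BelyiDivAt ℂ n`  ⇒(T)  `BelyiDivAt (Germ U ℚ̄) n`  ⇒(D)  `BelyiDivAt ℚ̄ n`  ⇒(B)  `DivisibleAt ℚ̄ n`.
-/
import Mathlib
import Fermat.Agent.S15lib.U1.Descent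
import Fermat.Agent.S15lib.U1.Transport
import Fermat.Agent.S15lib.Weil.NonDeg

set_option autoImplicit false
set_option linter.style.haveILetI false
set_option linter.unusedSectionVars false

noncomputable section

namespace Fermat.Agent.S15lib.U1

open AlgebraicCurve IntermediateField Fermat.Agent.S18lib Fermat.Agent.S27lib
  Fermat.Agent.S27lib.U

local notation "Qb" => AlgebraicClosure ℚ

/-- **(B) marked Belyi**: on a function field over `ℚ̄` there is a Belyi function vanishing at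
finitely many given places.  (A re-run of `S27lib/Belyi/StepA, StepB` keeping track of the marked
places; helper1's recipe in #h1-110.) -/
def MarkedBelyiStmt : Prop :=
  ∀ (F : Type) [Field F] [Algebra Qb F] (x : F), Belyi.IsCov Qb x →
    ∀ M : Finset (Place Qb F),
      ∃ β : F, Belyi.IsCov Qb β ∧ Belyi.BranchSet Qb β ⊆ {0, 1} ∧ ∀ P ∈ M, 0 < P.ord β

/-- (T) + (D): from `ℂ` to `ℚ̄` -/
theorem belyiDivAt_Qb {n : ℕ} (h : BelyiDivAt.{0, 0} ℂ n) : BelyiDivAt.{0, 0} Qb n := by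
  obtain ⟨I, U, hU⟩ := exists_belyiDivAt_germ h
  exact belyiDivAt_of_germ U Qb hU

/-- **(P)** divisibility of `Pic⁰` from the working statement over `ℚ̄` and marked Belyi functions -/
theorem divisibleAt_of_belyiDivAt (hB : MarkedBelyiStmt) {n : ℕ} (hn : 0 < n)
    (h : BelyiDivAt.{0, 0} Qb n) : Weil.DivisibleAt.{0, 0} Qb n := by
  intro F _ _ x hx hfin z
  haveI := hfin
  have hF := RRgen.Canonical.isCurveOfGenus_genusOf Qb hx
  haveI := hF.hasPrincipalDivisors
  obtain ⟨⟨D, hD⟩, rfl⟩ := Pic0.mk_surjective z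
  obtain ⟨β, hβ, hbr, hM⟩ := hB F x ⟨hx, hfin⟩ D.support
  obtain ⟨f, hf0, hdiv⟩ := h F β hβ hbr D hD
    (fun P hP => hM P (Finsupp.mem_support_iff.2 hP))
  obtain ⟨Df, hDf, hDfdeg⟩ := HasPrincipalDivisors.exists_divisor (K := Qb) f hf0
  obtain ⟨E, hE⟩ := exists_nsmul_eq_of_dvd (n := n) (D - Df) (fun R => by
    rw [Finsupp.sub_apply, hDf R]
    exact hdiv R)
  have hEdeg : Divisor.degree E = 0 := by
    have h1 : Divisor.degree (D - Df) = 0 := by
      rw [map_sub, hDfdeg, sub_zero]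
      exact hD
    rw [hE, map_nsmul, nsmul_eq_mul] at h1
    rcases mul_eq_zero.1 h1 with h2 | h2
    · exact absurd (by exact_mod_cast h2) hn.ne'
    · exact h2
  refine ⟨Pic0.mk ⟨E, hEdeg⟩, ?_⟩
  have h1 : n • Pic0.mk (⟨E, hEdeg⟩ : Divisor.degZero (K := Qb) (F := F)) =
      Pic0.mk (n • (⟨E, hEdeg⟩ : Divisor.degZero (K := Qb) (F := F))) := rfl
  rw [h1, mk_eq_mk_iff]
  have h2 : ((n • (⟨E, hEdeg⟩ : Divisor.degZero (K := Qb) (F := F)) :
      Divisor.degZero (K := Qb) (F := F)) : Divisor Qb F) - D = -Df := by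
    rw [AddSubgroup.coe_nsmul]
    show n • E - D = -Df
    rw [← hE]
    abel
  rw [h2]
  exact (Divisor.principal (K := Qb) (F := F)).neg_mem ⟨f, hf0, hDf⟩

/-- **(U1)** from the analytic core over `ℂ` and marked Belyi functions -/
theorem divisibleAt_of_complex (hB : MarkedBelyiStmt) {n : ℕ} (hn : 0 < n)
    (h : BelyiDivAt.{0, 0} ℂ n) : Weil.DivisibleAt.{0, 0} Qb n :=
  divisibleAt_of_belyiDivAt hB hn (belyiDivAt_Qb h)

end Fermat.Agent.S15lib.U1
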