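/-
S15lib / U1 / Cross (helper1).

Group-theoretic input of (U1): for `Γ ≤ SL(2,ℤ)` of finite index with `-1 ∈ Γ` and every function
`w : SL(2,ℤ) ⧸ Γ → M` with `∑ w = 0` there is a homomorphism `ψ : Γ → M` with `ψ(-1) = 0` whose
value on `g⁻¹ T^s g ∈ Γ` (`s ≥ 0`) is the period sum `∑_{j < s} w (T^{-j} • gΓ)`.

Construction (Shapiro): the map `PsiM (a, b) = (1 - x₁) a + x₁ (1 - x₂) b` of `S27lib/D5/ScottEq` is
ONTO the augmentation `ker σ` (its range contains all `δ_x - δ_{g x}`), so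
`S27lib/D5/CrossSL.exists_isCross_SL` gives a crossed homomorphism `z` with `z T = w`.
-/
import Mathlib
import Fermat.Agent.S27lib.D5.ScottEq
import Fermat.Agent.S27lib.D5.CrossSL
import Fermat.Agent.S27lib.D5.Final
import Fermat.Agent.S27lib.D4.Width

set_option autoImplicit false

noncomputable section

namespace Fermat.Agent.S15lib.U1

open Fermat.Agent.S16lib.LG Fermat.Agent.S27lib.D5 Fermat.Agent.ProgramR.ES
  Fermat.Agent.ProgramR.Genus
open scoped MatrixGroups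

section General

variable {G : Type*} [Group G] (Γ : Subgroup G) (M : Type*) [AddCommGroup M]

/-- `δ_x a - δ_{g x} a` lies in the range of `PsiM`. -/
lemma single_sub_single_mem_range_PsiM [DecidableEq (G ⧸ Γ)] (x₁ x₂ : G)
    (hgen : Subgroup.closure ({x₁, x₂} : Set G) = ⊤) (g : G) (x : G ⧸ Γ) (a : M) :
    (Pi.single x a - Pi.single (g • x) a : (G ⧸ Γ) → M) ∈ (PsiM Γ M x₁ x₂).range := by
  set R := (PsiM Γ M x₁ x₂).range with hR
  have hP1 : ∀ (x : G ⧸ Γ) (a : M),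
      (Pi.single x a - Pi.single (x₁ • x) a : (G ⧸ Γ) → M) ∈ R := by
    intro x a
    refine ⟨(Pi.single x a, 0), ?_⟩
    show (Pi.single x a - rhoM Γ x₁ (Pi.single x a)) + rhoM Γ x₁ (0 - rhoM Γ x₂ 0) = _
    rw [rhoM_single]
    simp
  have hP2' : ∀ (y : G ⧸ Γ) (a : M),
      (Pi.single (x₁ • y) a - Pi.single (x₁ • x₂ • y) a : (G ⧸ Γ) → M) ∈ R := by
    intro y a
    refine ⟨(0, Pi.single y a), ?_⟩
    show ((0 : (G ⧸ Γ) → M) - rhoM Γ x₁ 0) +
      rhoM Γ x₁ (Pi.single y a - rhoM Γ x₂ (Pi.single y a)) = _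
    simp only [map_zero, sub_zero, zero_add, map_sub, rhoM_single]
  have hP2 : ∀ (x : G ⧸ Γ) (a : M),
      (Pi.single x a - Pi.single (x₂ • x) a : (G ⧸ Γ) → M) ∈ R := by
    intro y a
    have e : (Pi.single y a - Pi.single (x₂ • y) a : (G ⧸ Γ) → M) =
        (Pi.single y a - Pi.single (x₁ • y) a) +
        (Pi.single (x₁ • y) a - Pi.single (x₁ • x₂ • y) a) -
        (Pi.single (x₂ • y) a - Pi.single (x₁ • x₂ • y) a) := by abel
    rw [e]
    exact sub_mem (add_mem (hP1 y a) (hP2' y a)) (hP1 (x₂ • y) a)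
  have hg : g ∈ Subgroup.closure ({x₁, x₂} : Set G) := by rw [hgen]; trivial
  induction hg using Subgroup.closure_induction generalizing x with
  | mem g hg =>
    rcases hg with rfl | hg
    · exact hP1 x a
    · rw [Set.mem_singleton_iff] at hg
      subst hg
      exact hP2 x a
  | one => rw [one_smul, sub_self]; exact zero_mem _
  | mul g h _ _ ihg ihh =>
    have e : (Pi.single x a - Pi.single ((g * h) • x) a : (G ⧸ Γ) → M) =
        (Pi.single x a - Pi.single (h • x) a) +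
        (Pi.single (h • x) a - Pi.single (g • h • x) a) := by
      rw [mul_smul]; abel
    rw [e]
    exact add_mem (ihh x) (ihg (h • x))
  | inv g _ ih =>
    have e : (Pi.single x a - Pi.single (g⁻¹ • x) a : (G ⧸ Γ) → M) =
        -(Pi.single (g⁻¹ • x) a - Pi.single (g • g⁻¹ • x) a) := by
      rw [smul_inv_smul]; abel
    rw [e]
    exact neg_mem (ih (g⁻¹ • x))

/-- **`PsiM` is onto the augmentation.** -/
lemma ker_sigmaM_le_range_PsiM [Fintype (G ⧸ Γ)] (x₁ x₂ : G)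
    (hgen : Subgroup.closure ({x₁, x₂} : Set G) = ⊤) :
    (sigmaM Γ M).ker ≤ (PsiM Γ M x₁ x₂).range := by
  classical
  intro v hv
  have hv' : ∑ x, v x = 0 := hv
  set x₀ : G ⧸ Γ := QuotientGroup.mk 1 with hx₀
  have e : v = ∑ x, (Pi.single x (v x) - Pi.single x₀ (v x) : (G ⧸ Γ) → M) := by
    rw [Finset.sum_sub_distrib, Finset.univ_sum_single]
    have : ∑ x, (Pi.single x₀ (v x) : (G ⧸ Γ) → M) = Pi.single x₀ (∑ x, v x) := by
      funext y
      rw [Finset.sum_apply]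
      by_cases hy : y = x₀
      · subst hy
        simp
      · simp [Pi.single_eq_of_ne hy]
    rw [this, hv', Pi.single_zero, sub_zero]
  rw [e]
  refine sum_mem ?_
  intro x _
  induction x using Quotient.inductionOn with
  | _ g =>
    have e2 : (Quotient.mk'' g : G ⧸ Γ) = g • x₀ := by
      rw [hx₀, smul_mk_eq, mul_one]
    show (Pi.single (Quotient.mk'' g) (v (Quotient.mk'' g)) -
      Pi.single x₀ (v (Quotient.mk'' g)) : (G ⧸ Γ) → M) ∈ _
    rw [e2]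
    have := single_sub_single_mem_range_PsiM Γ M x₁ x₂ hgen g x₀ (v (g • x₀))
    have e3 : (Pi.single (g • x₀) (v (g • x₀)) - Pi.single x₀ (v (g • x₀)) : (G ⧸ Γ) → M) =
        -(Pi.single x₀ (v (g • x₀)) - Pi.single (g • x₀) (v (g • x₀))) := by abel
    rw [e3]
    exact neg_mem this

variable {Γ M}

/-- the value at the base coset of a crossed homomorphism on a conjugate `g⁻¹ y^s g ∈ Γ` is a
period sum of `z y` along the `⟨y⟩`-orbit of `g Γ`. -/
lemma IsCross.apply_conj_pow_base {z : G → ((G ⧸ Γ) → M)} (hz : IsCross Γ z) (g y : G) (s : ℕ)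
    (hπ : g⁻¹ * (y ^ s * g) ∈ Γ) :
    z (g⁻¹ * (y ^ s * g)) (QuotientGroup.mk 1) =
      ∑ j ∈ Finset.range s, z y ((y ^ j)⁻¹ • (QuotientGroup.mk g : G ⧸ Γ)) := by
  set x₀ : G ⧸ Γ := QuotientGroup.mk 1 with hx₀
  have hgx : g • x₀ = (QuotientGroup.mk g : G ⧸ Γ) := by rw [hx₀, smul_mk_eq, mul_one]
  have hπx : (g⁻¹ * (y ^ s * g))⁻¹ • x₀ = x₀ := smul_base_eq Γ ⟨_, hπ⟩
  have hfix : (y ^ s)⁻¹ • (g • x₀) = g • x₀ := by
    calc (y ^ s)⁻¹ • (g • x₀) = g • ((g⁻¹ * (y ^ s * g))⁻¹ • x₀) := by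
          simp only [← mul_smul]
          congr 1
          group
      _ = g • x₀ := by rw [hπx]
  rw [hz g⁻¹ (y ^ s * g), hz (y ^ s) g, hz.map_inv, map_add, ← rhoM_mul, hz.map_pow]
  simp only [Pi.add_apply, Pi.neg_apply, rhoM_apply, inv_inv, mul_inv_rev, Finset.sum_apply,
    mul_smul]
  rw [hfix, hgx]
  abel

end General

section SL

open ModularGroup

variable (Γ : Subgroup SL(2, ℤ)) [Fintype (SL(2, ℤ) ⧸ Γ)] (M : Type*) [AddCommGroup M]

/-- **a crossed homomorphism with prescribed value at `T`** (any function of sum zero),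
vanishing on `±1`. -/
theorem exists_isCross_T (hneg : (-1 : SL(2, ℤ)) ∈ Γ) (w : (SL(2, ℤ) ⧸ Γ) → M)
    (hw : ∑ x, w x = 0) :
    ∃ z : SL(2, ℤ) → ((SL(2, ℤ) ⧸ Γ) → M), IsCross Γ z ∧ z T = w ∧
      ∀ c ∈ Subgroup.zpowers (-1 : SL(2, ℤ)), z c = 0 := by
  have hmem : -rhoM Γ (T⁻¹ : SL(2, ℤ)) w ∈ (sigmaM Γ M).ker := by
    show sigmaM Γ M (-rhoM Γ (T⁻¹ : SL(2, ℤ)) w) = 0
    rw [map_neg, sigmaM_rhoM]
    show -(∑ x, w x) = 0
    rw [hw, neg_zero]
  obtain ⟨⟨a, b⟩, hab⟩ := ker_sigmaM_le_range_PsiM Γ M (S * T)⁻¹ S closure_ST_inv_S hmem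
  obtain ⟨z, hz, h1, h2, h3⟩ := exists_isCross_SL Γ M hneg a b
  refine ⟨z, hz, ?_, h3⟩
  have h12 : z ((S * T)⁻¹ * S) = PsiM Γ M (S * T)⁻¹ S (a, b) := by
    rw [hz, h1, h2]
    rfl
  have hT : (T : SL(2, ℤ)) = ((S * T)⁻¹ * S)⁻¹ := by group
  have hT' : ((S * T)⁻¹ * S : SL(2, ℤ)) = T⁻¹ := by group
  rw [hT, hz.map_inv, h12, hab, map_neg, neg_neg, hT', inv_inv, rhoM_cancel_inv]

/-- **the homomorphism with prescribed period sums**: for `w` of sum zero there is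
`ψ : Γ → M` killing `-1` whose value at `g⁻¹ T^s g ∈ Γ` is `∑_{j < s} w (T^{-j} • gΓ)`. -/
theorem exists_hom_period_sums (hneg : (-1 : SL(2, ℤ)) ∈ Γ) (w : (SL(2, ℤ) ⧸ Γ) → M)
    (hw : ∑ x, w x = 0) :
    ∃ ψ : Additive Γ →+ M, ψ (Additive.ofMul ⟨-1, hneg⟩) = 0 ∧
      ∀ (g : SL(2, ℤ)) (s : ℕ) (hπ : g⁻¹ * (T ^ s * g) ∈ Γ),
        ψ (Additive.ofMul ⟨_, hπ⟩) =
          ∑ j ∈ Finset.range s, w ((T ^ j)⁻¹ • (QuotientGroup.mk g : SL(2, ℤ) ⧸ Γ)) := by
  obtain ⟨z, hz, hzT, hz1⟩ := exists_isCross_T Γ M hneg w hw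
  refine ⟨hz.psiOf, ?_, fun g s hπ => ?_⟩
  · rw [IsCross.psiOf_apply]
    show z (-1 : SL(2, ℤ)) _ = 0
    rw [hz1 _ (Subgroup.mem_zpowers _)]
    rfl
  · rw [IsCross.psiOf_apply]
    show z (g⁻¹ * (T ^ s * g)) _ = _
    rw [IsCross.apply_conj_pow_base hz g T s hπ, hzT]

open Fermat.Agent.S27lib.D4 Classical in
/-- the period sum of `δ_y c` along the `⟨T⟩`-orbit of `x`. -/
theorem sum_single_orbit (x y : SL(2, ℤ) ⧸ Γ) (c : M) :
    ∑ j ∈ Finset.range (widthG Γ x), (Pi.single y c : (SL(2, ℤ) ⧸ Γ) → M) ((T ^ j)⁻¹ • x) =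
      if y ∈ MulAction.orbit (Subgroup.zpowers (T : SL(2, ℤ))) x then c else 0 := by
  have hs : 0 < widthG Γ x := widthG_pos Γ x
  split_ifs with hy
  · obtain ⟨⟨t, ht⟩, rfl⟩ := hy
    obtain ⟨k, rfl⟩ := Subgroup.mem_zpowers_iff.mp ht
    show ∑ j ∈ Finset.range (widthG Γ x),
      (Pi.single ((T : SL(2, ℤ)) ^ k • x) c : (SL(2, ℤ) ⧸ Γ) → M) ((T ^ j)⁻¹ • x) = c
    -- the index `j₀ ≡ -k`
    set s : ℤ := (widthG Γ x : ℤ) with hsdef
    have hs' : 0 < s := by rw [hsdef]; exact_mod_cast hs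
    set j₀ : ℕ := ((-k) % s).toNat with hj₀
    have hj₀nn : 0 ≤ (-k) % s := Int.emod_nonneg _ hs'.ne'
    have hj₀lt : (-k) % s < s := Int.emod_lt_of_pos _ hs'
    have hj₀c : (j₀ : ℤ) = (-k) % s := Int.toNat_of_nonneg hj₀nn
    have hj₀mem : j₀ ∈ Finset.range (widthG Γ x) := by
      rw [Finset.mem_range]
      have : (j₀ : ℤ) < (widthG Γ x : ℤ) := by rw [hj₀c]; exact hj₀lt
      exact_mod_cast this
    have key : ∀ j : ℕ, ((T : SL(2, ℤ)) ^ j)⁻¹ • x = (T : SL(2, ℤ)) ^ k • x ↔ s ∣ (j : ℤ) + k := by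
      intro j
      rw [← T_zpow_smul_eq_iff_widthG_dvd Γ x ((j : ℤ) + k)]
      constructor
      · intro h
        rw [_root_.zpow_add, mul_smul, ← h, zpow_natCast, smul_inv_smul]
      · intro h
        rw [_root_.zpow_add, mul_smul, zpow_natCast] at h
        have h' := congrArg (fun y => ((T : SL(2, ℤ)) ^ j)⁻¹ • y) h
        simp only [inv_smul_smul] at h'
        exact h'.symm
    rw [Finset.sum_eq_single j₀]
    · have : ((T : SL(2, ℤ)) ^ j₀)⁻¹ • x = (T : SL(2, ℤ)) ^ k • x := by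
        rw [key, hj₀c]
        have := Int.emod_add_mul_ediv (-k) s
        exact ⟨-((-k) / s), by linarith⟩
      rw [this, Pi.single_eq_same]
    · intro j hj hne
      rw [Finset.mem_range] at hj
      apply Pi.single_eq_of_ne
      intro h
      apply hne
      have h1 := (key j).mp h
      have h2 : s ∣ (j₀ : ℤ) + k := by
        rw [hj₀c]
        have := Int.emod_add_mul_ediv (-k) s
        exact ⟨-((-k) / s), by linarith⟩
      have h3 : s ∣ (j : ℤ) - j₀ := by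
        have := dvd_sub h1 h2
        simpa using this
      have hj' : (j : ℤ) < s := by rw [hsdef]; exact_mod_cast hj
      have hj₀' : (j₀ : ℤ) < s := by rw [hj₀c]; exact hj₀lt
      have h4 : (j : ℤ) - j₀ = 0 := by
        apply Int.eq_zero_of_abs_lt_dvd h3
        rw [abs_lt]
        constructor <;> omega
      omega
    · intro h
      exact absurd hj₀mem h
  · apply Finset.sum_eq_zero
    intro j _
    apply Pi.single_eq_of_ne
    intro h
    apply hy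
    refine ⟨⟨((T : SL(2, ℤ)) ^ j)⁻¹, Subgroup.inv_mem _ (Subgroup.pow_mem _ (Subgroup.mem_zpowers _) j)⟩, ?_⟩
    exact h

end SL

end Fermat.Agent.S15lib.U1

end
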