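/-
S15lib / U1 / Cusp (helper1).

Analytic core of (U1) on the modular models `FanG Γ` (`Γ ≤ SL(2,ℤ)` of finite index with
`GammaHyp Γ`): every divisor `D` of degree zero supported on the cusps, with `n ∣ D(cusp ∞)`, is
modulo `n` the divisor of a function.

Proof: `U1/Cross` gives `ψ : Γ → ℤ/n` with `ψ(-1) = 0` and `ψ(π_Q) = D(Q)` at the generator `π_Q` of
the stabiliser of every cusp `Q`; `χ = exp(2πi ψ/n)` is trivial on `Γ_∞`, so the twisted Eisenstein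
series of `S27lib/D4/K2` gives `y ∈ Hol`, `y(γ z) = χ(γ) y(z)`, `yⁿ = G ∈ WH0 Γ`.  The divisor of `G`
is divisible by `n` on `ℍ` (`RootDataG.dvd_ordV_fin`), and at a cusp `Q` the cusp character formula
`RootDataG.χ_cusp` reads `exp(2πi ord_Q(G)/n) = χ(π_Q) = exp(2πi D(Q)/n)`.
-/
import Mathlib
import Fermat.Agent.S15lib.U1.Cross
import Fermat.Agent.S27lib.D4.Glue
import Fermat.Agent.S29lib.K3.ExpChar

set_option autoImplicit false
set_option linter.unusedSectionVars false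
set_option linter.style.haveILetI false

noncomputable section

namespace Fermat.Agent.S15lib.U1

open Fermat.Agent.ProgramR Fermat.Agent.ProgramR.RR Fermat.Agent.ProgramR.Alg
open Fermat.Agent.ProgramR.CuspLocal
open Fermat.Agent.S27lib.D4 Fermat.Agent.S29lib.K3 Fermat.Agent.S18lib
open AlgebraicCurve UpperHalfPlane IsDedekindDomain
open scoped MatrixGroups Manifold Real

variable {Γ : Subgroup SL(2, ℤ)} [Fintype (SL(2, ℤ) ⧸ Γ)]

/-- **the root datum of a homomorphism `ψ : Γ → ℤ/n` killing `Γ_∞`** (twisted Eisenstein series) -/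
theorem exists_rootData_of_hom (hΓ : GammaHyp Γ) {n : ℕ} [NeZero n]
    (ψ : Additive Γ →+ ZMod n)
    (hψ : ∀ γ : Γ, (γ : SL(2, ℤ)) 1 0 = 0 → ψ (Additive.ofMul γ) = 0) :
    ∃ (G : BG Γ) (R : RootDataG Γ n G), G ≠ 0 ∧ R.χ = expChar n ψ := by
  have hn : n ≠ 0 := NeZero.ne n
  set χ : Γ →* ℂˣ := expChar n ψ with hχdef
  have hχn : ∀ γ : Γ, χ γ ^ n = 1 := fun γ => expChar_pow n ψ γ
  have hχ : ∀ γ : Γ, (γ : SL(2, ℤ)) 1 0 = 0 → χ γ = 1 := fun γ h0 =>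
    (expChar_eq_one_iff n ψ γ).mpr (hψ γ h0)
  have hnorm := K2.norm_eq_one_of_pow_eq_oneG hn hχn
  refine ⟨K2.gChiG χ hn hχn hχ,
    { y := K2.yChiG χ hnorm
      pow_eq := (K2.toHol_gChiG hn hχn hχ).symm
      χ := χ
      smul_eq := fun γ z => K2.yChiG_smul hnorm hχ γ z },
    K2.gChiG_ne_zero hΓ.neg hn hχn hχ, rfl⟩

/-- `exp(2πi d/n)` as a power of the twist factor of period `nM` -/
lemma stdAddChar_eq_twistFactor_zpow {n : ℕ} [NeZero n] {M w : ℕ} (hM : 0 < M) (hw : w ∣ M)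
    (hw0 : 0 < w) (d : ℤ) :
    (ZMod.stdAddChar ((d : ℤ) : ZMod n) : ℂ) =
      twistFactor ((n : ℝ) * (M : ℝ)) ((w : ℤ) : ℝ) ^ (((M / w : ℕ) : ℤ) * d) := by
  rw [ZMod.stdAddChar_coe, twistFactor, ← Complex.exp_int_mul]
  congr 1
  obtain ⟨q, rfl⟩ := hw
  have hq : w * q / w = q := Nat.mul_div_cancel_left q hw0
  rw [hq]
  have hn0 : (n : ℂ) ≠ 0 := Nat.cast_ne_zero.mpr (NeZero.ne n)
  have hw0' : (w : ℂ) ≠ 0 := Nat.cast_ne_zero.mpr hw0.ne'
  have hq0 : (q : ℂ) ≠ 0 := by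
    intro h
    have : q = 0 := by exact_mod_cast h
    rw [this, mul_zero] at hM
    exact lt_irrefl _ hM
  push_cast
  field_simp

namespace RootDataGU

variable {n : ℕ} {G : BG Γ} (R : RootDataG Γ n G)

/-- **the order of `G` at a cusp modulo `n`** from the value of the character at the generator of
the stabiliser of the cusp -/
theorem dvd_ordV_cusp_sub (hΓ : GammaHyp Γ) (hG : G ≠ 0) (hn : 0 < n) (g : SL(2, ℤ)) (d : ℤ)
    (hd : ∀ hπ : g⁻¹ * (ModularGroup.T ^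
        ((widthG Γ (QuotientGroup.mk g : SL(2, ℤ) ⧸ Γ) : ℕ) : ℤ) * g) ∈ Γ,
      haveI : NeZero n := ⟨hn.ne'⟩
      ((R.χ ⟨_, hπ⟩ : ℂˣ) : ℂ) = ZMod.stdAddChar ((d : ℤ) : ZMod n)) :
    (n : ℤ) ∣ ordV (cuspPrimeG Γ hΓ.rank (QuotientGroup.mk g)) (toFanG Γ G) - d := by
  haveI : NeZero n := ⟨hn.ne'⟩
  set w := widthG Γ (QuotientGroup.mk g : SL(2, ℤ) ⧸ Γ) with hwdef
  have hπ : g⁻¹ * (ModularGroup.T ^ ((w : ℕ) : ℤ) * g) ∈ Γ := conj_T_zpow_widthG_mem Γ g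
  have hwpos : 0 < w := widthG_pos Γ _
  have hwM : w ∣ cuspM Γ := widthG_dvd Γ _
  have h1 := R.χ_cusp hG hn g (w : ℤ) hπ
  rw [hd hπ, order_cuspExpG Γ hΓ.rank g hG, ← hwdef,
    stdAddChar_eq_twistFactor_zpow (cuspM_pos Γ) hwM hwpos d] at h1
  set o := ordV (cuspPrimeG Γ hΓ.rank (QuotientGroup.mk g)) (toFanG Γ G) with ho
  set tw := twistFactor ((n : ℝ) * (cuspM Γ : ℝ)) ((w : ℤ) : ℝ) with htw
  have htw0 : tw ≠ 0 := twistFactor_ne_zero _ _
  have h2 : tw ^ (((cuspM Γ / w : ℕ) : ℤ) * (o - d)) = 1 := by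
    rw [mul_sub, zpow_sub₀ htw0, ← h1]
    exact div_self (zpow_ne_zero _ htw0)
  have hM : n * cuspM Γ ≠ 0 := Nat.mul_ne_zero hn.ne' (cuspM_pos Γ).ne'
  have e : (((n * cuspM Γ : ℕ) : ℝ)) = (n : ℝ) * (cuspM Γ : ℝ) := by push_cast; ring
  have h3 := (twistFactor_zpow_eq_one_iff' (n * cuspM Γ) hM (w : ℤ)
    (((cuspM Γ / w : ℕ) : ℤ) * (o - d))).mp (by rw [e]; exact h2)
  obtain ⟨q, hq⟩ := hwM
  have hdiv : cuspM Γ / w = q := by rw [hq, Nat.mul_div_cancel_left q hwpos]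
  rw [hdiv] at h3
  have hN : (cuspM Γ : ℤ) = (w : ℤ) * (q : ℤ) := by exact_mod_cast hq
  have hN0 : (cuspM Γ : ℤ) ≠ 0 := by exact_mod_cast (cuspM_pos Γ).ne'
  obtain ⟨r, hr⟩ := h3
  refine ⟨r, ?_⟩
  apply mul_left_cancel₀ hN0
  push_cast at hr
  rw [hN] at hr ⊢
  linear_combination hr

end RootDataGU

/-- the place of the cusp attached to a coset -/
def cuspPl (hΓ : GammaHyp Γ) (x : SL(2, ℤ) ⧸ Γ) : Place ℂ (FanG Γ) :=
  plInfG Γ (cuspPrimeG Γ hΓ.rank x)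

lemma cuspPl_eq_iff (hΓ : GammaHyp Γ) (x y : SL(2, ℤ) ⧸ Γ) :
    cuspPl hΓ y = cuspPl hΓ x ↔
      y ∈ MulAction.orbit (Subgroup.zpowers (ModularGroup.T : SL(2, ℤ))) x := by
  rw [← cuspPrimeG_eq_iff Γ hΓ.rank x y]
  constructor
  · intro h
    exact RRgen.placeInf_injective ℂ (FanG Γ) (BGInf Γ) h
  · intro h
    unfold cuspPl
    rw [h]

/-- a homomorphism `ψ : Γ → ℤ/n` killing `-1` and the powers of `T` kills the upper triangular
elements -/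
lemma hom_upper_eq_zero {n : ℕ} (hneg : (-1 : SL(2, ℤ)) ∈ Γ) (ψ : Additive Γ →+ ZMod n)
    (h1 : ψ (Additive.ofMul ⟨-1, hneg⟩) = 0)
    (hT : ∀ (s : ℕ) (h : ModularGroup.T ^ s ∈ Γ), ψ (Additive.ofMul ⟨_, h⟩) = 0)
    (γ : Γ) (h0 : (γ : SL(2, ℤ)) 1 0 = 0) : ψ (Additive.ofMul γ) = 0 := by
  -- all integral powers of `T`
  have hTz : ∀ (k : ℤ) (h : ModularGroup.T ^ k ∈ Γ), ψ (Additive.ofMul ⟨_, h⟩) = 0 := by
    intro k h
    obtain ⟨s, rfl | rfl⟩ := Int.eq_nat_or_neg k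
    · have h' : ModularGroup.T ^ s ∈ Γ := by rwa [zpow_natCast] at h
      have e : (⟨_, h⟩ : Γ) = ⟨_, h'⟩ := Subtype.ext (zpow_natCast _ _)
      rw [e]
      exact hT s h'
    · have h' : ModularGroup.T ^ s ∈ Γ := by
        rw [zpow_neg, zpow_natCast] at h
        exact (Subgroup.inv_mem_iff Γ).mp h
      have e : (⟨_, h⟩ : Γ) = (⟨_, h'⟩ : Γ)⁻¹ := by
        apply Subtype.ext
        rw [Subgroup.coe_inv]
        show ModularGroup.T ^ (-(s : ℤ)) = (ModularGroup.T ^ s)⁻¹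
        rw [zpow_neg, zpow_natCast]
      rw [e, ofMul_inv, map_neg, hT s h', neg_zero]
  obtain ⟨k, hk | hk⟩ := eq_T_zpow_or_neg_of_c_eq_zero (γ : SL(2, ℤ)) h0
  · have h : ModularGroup.T ^ k ∈ Γ := hk ▸ γ.2
    have e : γ = ⟨_, h⟩ := Subtype.ext hk
    rw [e]
    exact hTz k h
  · have h : ModularGroup.T ^ k ∈ Γ := by
      have h2 : ModularGroup.T ^ k = (-1 : SL(2, ℤ)) * γ := by
        rw [hk]
        simp
      rw [h2]
      exact Γ.mul_mem hneg γ.2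
    have e : γ = ⟨-1, hneg⟩ * ⟨_, h⟩ := by
      apply Subtype.ext
      rw [hk]
      simp
    rw [e, ofMul_mul, map_add, h1, hTz k h, add_zero]

/-- **cuspidal divisors of degree zero are divisible modulo principal divisors** (analytic core of
(U1)): on `FanG Γ`, a divisor `D` of degree zero supported on the places at infinity with
`n ∣ D(cusp ∞)` is congruent modulo `n` to the divisor of a function. -/
theorem exists_fun_cuspDiv (hΓ : GammaHyp Γ) {n : ℕ} (hn : 0 < n) (D : Divisor ℂ (FanG Γ))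
    (hdeg : Divisor.degree D = 0)
    (hsupp : ∀ v : Place ℂ (FanG Γ), D v ≠ 0 →
      ∃ Q : HeightOneSpectrum (BGInf Γ), plInfG Γ Q = v)
    (hinf : (n : ℤ) ∣ D (cuspPl hΓ (QuotientGroup.mk 1))) :
    ∃ f : FanG Γ, f ≠ 0 ∧ ∀ v : Place ℂ (FanG Γ), (n : ℤ) ∣ D v - v.ord f := by
  classical
  haveI : NeZero n := ⟨hn.ne'⟩
  -- cosets of the points of the support
  have hex : ∀ v : Place ℂ (FanG Γ), ∃ x : SL(2, ℤ) ⧸ Γ, D v ≠ 0 → cuspPl hΓ x = v := by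
    intro v
    by_cases hv : D v ≠ 0
    · obtain ⟨Q, hQ⟩ := hsupp v hv
      obtain ⟨g, hg⟩ := exists_cuspPrimeG_eq Γ hΓ.rank Q
      refine ⟨QuotientGroup.mk g, fun _ => ?_⟩
      unfold cuspPl
      rw [hg, hQ]
    · exact ⟨QuotientGroup.mk 1, fun h => absurd h hv⟩
  choose xOf hxOf using hex
  set w : (SL(2, ℤ) ⧸ Γ) → ZMod n :=
    ∑ v ∈ D.support, Pi.single (xOf v) ((D v : ℤ) : ZMod n) with hw
  -- the sum of `w` is the degree of `D`
  have hwsum : ∑ x, w x = 0 := by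
    have h1 : ∀ x, w x = ∑ v ∈ D.support,
        (Pi.single (xOf v) ((D v : ℤ) : ZMod n) : (SL(2, ℤ) ⧸ Γ) → ZMod n) x := by
      intro x
      rw [hw, Finset.sum_apply]
    simp only [h1]
    rw [Finset.sum_comm]
    have h2 : ∀ v ∈ D.support, ∑ x, (Pi.single (xOf v) ((D v : ℤ) : ZMod n) :
        (SL(2, ℤ) ⧸ Γ) → ZMod n) x = ((D v : ℤ) : ZMod n) := by
      intro v _
      rw [Finset.sum_pi_single']
      simp
    rw [Finset.sum_congr rfl h2, ← Int.cast_sum]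
    have h3 : ∑ v ∈ D.support, D v = Divisor.degree D := by
      unfold Divisor.degree
      rw [Finsupp.liftAddHom_apply, Finsupp.sum]
      refine Finset.sum_congr rfl fun v _ => ?_
      rw [AddMonoidHom.mulRight_apply, (isCurveG Γ).deg_eq_one v]
      simp
    rw [h3, hdeg, Int.cast_zero]
  -- period sums
  have hper : ∀ x : SL(2, ℤ) ⧸ Γ, ∑ j ∈ Finset.range (widthG Γ x),
      w ((ModularGroup.T ^ j)⁻¹ • x) = ((D (cuspPl hΓ x) : ℤ) : ZMod n) := by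
    intro x
    have h1 : ∀ y, w y = ∑ v ∈ D.support,
        (Pi.single (xOf v) ((D v : ℤ) : ZMod n) : (SL(2, ℤ) ⧸ Γ) → ZMod n) y := by
      intro y
      rw [hw, Finset.sum_apply]
    simp only [h1]
    rw [Finset.sum_comm]
    have h2 : ∀ v ∈ D.support, ∑ j ∈ Finset.range (widthG Γ x),
        (Pi.single (xOf v) ((D v : ℤ) : ZMod n) : (SL(2, ℤ) ⧸ Γ) → ZMod n)
          ((ModularGroup.T ^ j)⁻¹ • x) =
        if cuspPl hΓ x = v then ((D v : ℤ) : ZMod n) else 0 := by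
      intro v hv
      rw [sum_single_orbit]
      have hv' : D v ≠ 0 := Finsupp.mem_support_iff.mp hv
      have hiff : xOf v ∈ MulAction.orbit (Subgroup.zpowers (ModularGroup.T : SL(2, ℤ))) x ↔
          cuspPl hΓ x = v := by
        rw [← cuspPl_eq_iff hΓ x (xOf v), hxOf v hv']
        exact eq_comm
      by_cases h : cuspPl hΓ x = v
      · rw [if_pos (hiff.mpr h), if_pos h]
      · rw [if_neg (fun h' => h (hiff.mp h')), if_neg h]
    rw [Finset.sum_congr rfl h2, Finset.sum_ite_eq]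
    split_ifs with h
    · rfl
    · rw [Finsupp.notMem_support_iff.mp h, Int.cast_zero]
  -- the homomorphism
  obtain ⟨ψ, hψneg, hψ⟩ := exists_hom_period_sums Γ (ZMod n) hΓ.neg w hwsum
  -- `ψ` kills the powers of `T` in `Γ`
  have hψT : ∀ (s : ℕ) (h : ModularGroup.T ^ s ∈ Γ), ψ (Additive.ofMul ⟨_, h⟩) = 0 := by
    intro s h
    set x₀ : SL(2, ℤ) ⧸ Γ := QuotientGroup.mk 1 with hx₀
    set w₀ := widthG Γ x₀ with hw₀
    have hπ₀ : (1 : SL(2, ℤ))⁻¹ * (ModularGroup.T ^ w₀ * 1) ∈ Γ := by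
      have := conj_T_zpow_widthG_mem Γ (1 : SL(2, ℤ))
      rwa [zpow_natCast] at this
    have hT₀ : ModularGroup.T ^ w₀ ∈ Γ := by simpa using hπ₀
    have hval : ψ (Additive.ofMul ⟨_, hT₀⟩) = 0 := by
      have e : (⟨_, hT₀⟩ : Γ) = ⟨_, hπ₀⟩ := Subtype.ext (by simp)
      rw [e, hψ 1 w₀ hπ₀, hper x₀]
      exact (ZMod.intCast_zmod_eq_zero_iff_dvd _ n).mpr hinf
    have hdvd : w₀ ∣ s := by
      have h1 : ModularGroup.T ^ (s : ℤ) • x₀ = x₀ := by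
        rw [hx₀, T_zpow_smul_mk_eq_iffG]
        simpa using h
      exact Int.natCast_dvd_natCast.mp ((T_zpow_smul_eq_iff_widthG_dvd Γ x₀ _).mp h1)
    obtain ⟨t, rfl⟩ := hdvd
    have e : (⟨_, h⟩ : Γ) = (⟨_, hT₀⟩ : Γ) ^ t := by
      apply Subtype.ext
      rw [Subgroup.coe_pow]
      exact pow_mul _ _ _
    rw [e, ofMul_pow, map_nsmul, hval, smul_zero]
  have hψup := hom_upper_eq_zero hΓ.neg ψ hψneg hψT
  -- the root datum
  obtain ⟨G, R, hG, hRχ⟩ := exists_rootData_of_hom hΓ ψ hψup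
  refine ⟨toFanG Γ G, toFanG_ne_zero Γ hG, fun v => ?_⟩
  rcases exists_plFinG_or_plInfG Γ v with ⟨P, rfl⟩ | ⟨Q, rfl⟩
  · -- finite places
    have hD0 : D (plFinG Γ P) = 0 := by
      by_contra hne
      obtain ⟨Q, hQ⟩ := hsupp _ hne
      exact RRgen.placeFin_ne_placeInf ℂ (FanG Γ) (BG Γ) (BGInf Γ) P Q hQ.symm
    rw [hD0, zero_sub, dvd_neg, ord_plFinG]
    exact R.dvd_ordV_fin hΓ hG hn P
  · -- cusps
    obtain ⟨g, hg⟩ := exists_cuspPrimeG_eq Γ hΓ.rank Q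
    rw [ord_plInfG, ← dvd_neg, neg_sub, ← hg]
    have hDv : D (plInfG Γ (cuspPrimeG Γ hΓ.rank (QuotientGroup.mk g))) =
        D (cuspPl hΓ (QuotientGroup.mk g)) := rfl
    rw [hDv]
    apply RootDataGU.dvd_ordV_cusp_sub R hΓ hG hn g
    intro hπ
    set s := widthG Γ (QuotientGroup.mk g : SL(2, ℤ) ⧸ Γ) with hs
    have hπ' : g⁻¹ * (ModularGroup.T ^ s * g) ∈ Γ := by rwa [zpow_natCast] at hπ
    have e : (⟨_, hπ⟩ : Γ) = ⟨_, hπ'⟩ := by
      apply Subtype.ext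
      show g⁻¹ * (ModularGroup.T ^ ((s : ℕ) : ℤ) * g) = g⁻¹ * (ModularGroup.T ^ s * g)
      rw [zpow_natCast]
    rw [e, hRχ, expChar_apply, hψ g s hπ', hper]

end Fermat.Agent.S15lib.U1

end
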