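/-
S15lib / U1 / Descent  (helper7)  — Project E, block (U1), step (D)

**Diagonal descent of `BelyiDivAt`**: for every ultrafilter `V` and every algebraically closed field
`K` of characteristic zero, `BelyiDivAt (Germ V K) n → BelyiDivAt K n`.

For `F / K` with Belyi function `β` and a divisor `D` of degree zero on the zeros of `β`: the diagonal
function field `F' = FD V K F y` over `K* = Germ V K` (`S27lib/U/DiagField`), `β' = x_{F'}`,
`D' = Σ_P D(P) · placeOf (const P)`; a solution `f'` of `D' ≡ div f' mod n` has components `f_i` with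
`D ≡ div f_i mod n` for almost all `i` (`S27lib/U/Dict`: `compDiv_divisor`, `eventually_eq_compPlace`).
-/
import Mathlib
import Fermat.Agent.S15lib.U1.Iface
import Fermat.Agent.S27lib.TD

set_option autoImplicit false
set_option linter.unusedSectionVars false
set_option linter.style.haveILetI false

noncomputable section

namespace Fermat.Agent.S15lib.U1

open Filter IntermediateField AlgebraicCurve Fermat.Agent.S18lib Fermat.Agent.S27lib
  Fermat.Agent.S27lib.U Fermat.Agent.S27lib.U.Diag

universe u w

/-- a divisor all of whose values are divisible by `n` is `n` times a divisor -/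
theorem exists_nsmul_eq_of_dvd {K F : Type*} [Field K] [Field F] [Algebra K F] {n : ℕ}
    (X : Divisor K F) (h : ∀ R : Place K F, (n : ℤ) ∣ X R) : ∃ E : Divisor K F, X = n • E := by
  refine ⟨X.mapRange (fun z => z / (n : ℤ)) (Int.zero_ediv _), ?_⟩
  ext R
  rw [Finsupp.smul_apply, Finsupp.mapRange_apply, nsmul_eq_mul]
  exact (Int.mul_ediv_cancel' (h R)).symm

section Diag

variable {ι : Type w} (V : Ultrafilter ι) (K : Type u) [Field K] [IsAlgClosed K] [CharZero K]

/-- **(D)** diagonal descent of the working statement of (U1) -/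
theorem belyiDivAt_of_germ {n : ℕ}
    (H : BelyiDivAt.{max u w, max u w} (Germ (V : Filter ι) K) n) : BelyiDivAt.{u, u} K n := by
  intro F _ _ β hβ hbr D hD hsupp
  classical
  have hx := hβ.transcendental
  haveI := hβ.finite
  have hF := RRgen.Canonical.isCurveOfGenus_genusOf K hx
  letI := RRgen.Canonical.ratFuncAlgebra K hx
  haveI := RRgen.Canonical.isScalarTower_const_ratFunc K hx
  haveI := RRgen.Canonical.finiteDimensional_ratFunc K hx
  haveI : CharZero (RatFunc K) :=
    charZero_of_injective_algebraMap (algebraMap K (RatFunc K)).injective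
  obtain ⟨y, hy⟩ := Field.exists_primitive_element (RatFunc K) F
  letI := hF.hasPrincipalDivisors
  have hx' := transcendental_xE (KS V K) (FD V K F y)
  haveI := finiteDimensional_adjoin_xE (KS V K) (FD V K F y)
  have hF' := RRgen.Canonical.isCurveOfGenus_genusOf (KS V K) hx'
  set S := diagFam V K F hF.deg_eq_one hy with hS
  have hxE : xE K F = β := RRgen.Canonical.algebraMap_ratFuncAlgebra_X K hx
  set β' : FD V K F y := xE (KS V K) (FD V K F y) with hβ'
  have hcompβ : ∀ᶠ i in (V : Filter ι), S.comp β' i = β := S.comp_x.mono fun i hi => hi.trans hxE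
  have hβ'0 : β' ≠ 0 := fun h => hx' (h ▸ isAlgebraic_zero)
  -- `β'` is a Belyi function
  have hbr' : Belyi.BranchSet (KS V K) β' ⊆ {0, 1} := by
    intro c hc
    induction c using Germ.inductionOn with
    | _ c =>
      obtain ⟨R, hR⟩ := hc
      have hne : β' - algebraMap (KS V K) (FD V K F y) ((c : ι → K) : KS V K) ≠ 0 := by
        intro h0
        rw [sub_eq_zero] at h0
        exact hx' (h0 ▸ isAlgebraic_algebraMap _)
      have h1 : ∀ᶠ i in (V : Filter ι), ∃ Q : Place K F, 2 ≤ Q.ord (β - algebraMap K F (c i)) := by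
        filter_upwards [S.ord_compPlace hF' R hne,
          S.comp_sub β' (algebraMap (KS V K) (FD V K F y) ((c : ι → K) : KS V K)), hcompβ,
          S.comp_const c] with i h1 h2 h3 h4
        refine ⟨S.compPlace hF' R i, ?_⟩
        have h5 : S.comp (β' - algebraMap (KS V K) (FD V K F y) ((c : ι → K) : KS V K)) i =
            β - algebraMap K F (c i) := by
          rw [h2, h4, h3]
          rfl
        rw [h5] at h1
        exact hR.trans_eq h1.symm
      have h2 : ∀ᶠ i in (V : Filter ι), c i = 0 ∨ c i = 1 := h1.mono fun i hi => hbr hi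
      rcases Ultrafilter.eventually_or.mp h2 with h3 | h3
      · left
        exact Germ.coe_eq.mpr h3
      · right
        exact Germ.coe_eq.mpr h3
  -- the places of `F'` attached to the places of `F`
  let R' : Place K F → Place (KS V K) (FD V K F y) := fun P => S.placeOf (fun _ => P)
  have hcomp : ∀ P : Place K F, ∀ᶠ i in (V : Filter ι), S.compPlace hF' (R' P) i = P := fun P =>
    (S.eventually_eq_compPlace hF' (fun _ => P)).mono fun i hi => hi.symm
  have hord : ∀ (P : Place K F) (h : FD V K F y), h ≠ 0 →
      ∀ᶠ i in (V : Filter ι), P.ord (S.comp h i) = (R' P).ord h := by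
    intro P h hh
    filter_upwards [S.ord_compPlace hF' (R' P) hh, hcomp P] with i h1 h2
    rw [h2] at h1
    exact h1
  set D' : Divisor (KS V K) (FD V K F y) := Finsupp.mapDomain R' D with hD'
  -- degree
  have hdegAll : ∀ E : Divisor K F,
      Divisor.degree (Finsupp.mapDomain R' E : Divisor (KS V K) (FD V K F y)) =
        Divisor.degree E := by
    intro E
    induction E using Finsupp.induction with
    | zero => rw [Finsupp.mapDomain_zero, map_zero, map_zero]
    | single_add P m E _ _ ih =>
      rw [Finsupp.mapDomain_add, map_add, map_add, ih, Finsupp.mapDomain_single,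
        Divisor.degree_single, Divisor.degree_single, hF'.deg_eq_one, hF.deg_eq_one]
  have hdeg' : Divisor.degree D' = 0 := by rw [hD', hdegAll, hD]
  -- support
  have hsupp' : ∀ R : Place (KS V K) (FD V K F y), D' R ≠ 0 → 0 < R.ord β' := by
    intro R hR
    have h1 : R ∈ D'.support := Finsupp.mem_support_iff.2 hR
    have h2 := Finsupp.mapDomain_support h1
    obtain ⟨P, hP, rfl⟩ := Finset.mem_image.1 h2
    obtain ⟨i, h3, h4⟩ := ((hord P β' hβ'0).and hcompβ).exists
    rw [← h3, h4]
    exact hsupp P (Finsupp.mem_support_iff.1 hP)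
  -- the solution over the ultrapower
  obtain ⟨f', hf'0, hdiv⟩ := H (FD V K F y) β' ⟨hx', inferInstance⟩ hbr' D' hdeg' hsupp'
  obtain ⟨Df', hDf', -⟩ := hF'.hasPrincipalDivisors.exists_divisor f' hf'0
  obtain ⟨E', hE'⟩ := exists_nsmul_eq_of_dvd (n := n) (D' - Df') (fun R => by
    rw [Finsupp.sub_apply, hDf' R]
    exact hdiv R)
  -- components
  have hD'comp : ∀ᶠ i in (V : Filter ι), S.compDiv hF' i D' = D := by
    have hall : ∀ᶠ i in (V : Filter ι), ∀ P ∈ D.support, S.compPlace hF' (R' P) i = P := by
      rw [Finset.eventually_all]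
      exact fun P _ => hcomp P
    filter_upwards [hall] with i hi
    rw [UFam.compDiv, hD', ← Finsupp.mapDomain_comp]
    have h1 : Finsupp.mapDomain ((fun R => S.compPlace hF' R i) ∘ R') D =
        Finsupp.mapDomain id D := Finsupp.mapDomain_congr fun P hP => hi P hP
    rw [h1, Finsupp.mapDomain_id]
  obtain ⟨i, h1, h2, h3⟩ := ((S.comp_ne_zero hf'0).and
    ((S.compDiv_divisor hF' hf'0 hDf').and hD'comp)).exists
  refine ⟨S.comp f' i, h1, fun P => ?_⟩
  have h4 : S.compDiv hF' i (D' - Df') = n • S.compDiv hF' i E' := by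
    rw [hE', UFam.compDiv_nsmul]
  rw [UFam.compDiv_sub, h3] at h4
  have h5 : D P - (S.compDiv hF' i Df') P = n • (S.compDiv hF' i E') P :=
    DFunLike.congr_fun h4 P
  rw [h2 P, nsmul_eq_mul] at h5
  exact ⟨_, h5⟩

end Diag

end Fermat.Agent.S15lib.U1
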