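/-
S15lib / U1 / OverC (helper1).

**(U1) over `ℂ`**: `BelyiDivAt ℂ n` — on a function field `F / ℂ` with a Belyi function `β`, every
divisor of degree zero supported on the zeros of `β` is modulo `n` the divisor of a function.

`D3.exists_gamma_iso` identifies `F` with `FanG Γ`, `β ↦ u₄` (the Hauptmodul of `Γ₀(4)`, which omits
`0` and `1` on `ℍ`), so the zeros of `β` are cusps and `U1/Cusp.exists_fun_cuspDiv` applies as soon
as the cusp `∞` is not a zero of `u₄`.  If it is (the order `o4` of the `q`-expansion of `u₄` is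
positive — independent of `Γ`), we uniformise `1 - β` instead: then the zeros of `β` are the zeros
of `1 - u₄`, and the cusp `∞` is not among them.
-/
import Mathlib
import Fermat.Agent.S15lib.U1.Iface
import Fermat.Agent.S15lib.U1.Cusp
import Fermat.Agent.S27lib.D3.Final
import Fermat.Agent.S27lib.BR.Divisors

set_option autoImplicit false
set_option linter.unusedSectionVars false
set_option linter.style.haveILetI false

noncomputable section

namespace Fermat.Agent.S15lib.U1

open Fermat.Agent.ProgramR Fermat.Agent.ProgramR.RR Fermat.Agent.ProgramR.Alg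
open Fermat.Agent.ProgramR.CuspLocal
open Fermat.Agent.S27lib Fermat.Agent.S27lib.D4 Fermat.Agent.S27lib.D3 Fermat.Agent.S29lib.K3
open Fermat.Agent.S18lib Fermat.Agent.S27lib.BR
open AlgebraicCurve UpperHalfPlane IsDedekindDomain CongruenceSubgroup
open scoped MatrixGroups Manifold Real

/-! ### the order of `u₄` at the cusp `∞` -/

/-- the order of the `q`-expansion of the Hauptmodul `u₄` at `i∞` -/
def o4 : ℤ := (QExp.laurentExp ((1 : ℕ) : ℝ) (u4 : ℍ → ℂ)).order

section Gamma

variable {Γ : Subgroup SL(2, ℤ)} [Fintype (SL(2, ℤ) ⧸ Γ)]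

/-- `u₄` as an element of `WH0 Γ`, `Γ ≤ Γ₀(4)` -/
def u4G (h4 : Γ ≤ Gamma0 4) : BG Γ := ⟨u4.1, WH0_mono h4 u4.2⟩

lemma u4G_apply (h4 : Γ ≤ Gamma0 4) (z : ℍ) : (u4G h4).1 z = (u4 : ℍ → ℂ) z := rfl

lemma u4G_ne_zero (h4 : Γ ≤ Gamma0 4) : u4G h4 ≠ 0 := by
  intro h
  have := congrArg (fun f : BG Γ => f.1 UpperHalfPlane.I) h
  exact u4_ne_zero UpperHalfPlane.I this

/-- the expansion of `u₄` at the cusp `∞` of `Γ` has order `M · o4` -/
lemma order_cuspExpG_u4G (h4 : Γ ≤ Gamma0 4) :
    (cuspExpG Γ 1 (u4G h4)).order = (cuspM Γ : ℤ) * o4 := by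
  have hT : (1 : SL(2, ℤ))⁻¹ * (ModularGroup.T ^ ((1 : ℕ) : ℤ) * 1) ∈ Gamma0 4 := by
    simp only [inv_one, one_mul, mul_one, Nat.cast_one, zpow_one]
    rw [Gamma0_mem]
    simp [ModularGroup.T]
  obtain ⟨m, hm⟩ := exists_isMeroAtInfty_slTranslate (mem_WH0.mp u4.2) 1 Nat.one_pos hT
  rw [slTranslate_one] at hm
  have h1 := QExp.laurentExp_period_mul (h := ((1 : ℕ) : ℝ)) (by norm_num) (n := cuspM Γ) hm
  rw [cuspExpG_apply, slTranslate_one]
  have e : (cuspM Γ : ℝ) = (cuspM Γ : ℝ) * ((1 : ℕ) : ℝ) := by simp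
  show (QExp.laurentExp (cuspM Γ : ℝ) (u4 : ℍ → ℂ)).order = _
  rw [e, h1, order_qExpand_eq]
  rfl

/-- the sign of the order of `u₄` at the place of the cusp `∞` does not depend on `Γ` -/
lemma ord_cuspPl_u4G_pos_iff (hΓ : GammaHyp Γ) (h4 : Γ ≤ Gamma0 4) :
    0 < (cuspPl hΓ (QuotientGroup.mk 1)).ord (toFanG Γ (u4G h4)) ↔ 0 < o4 := by
  have h1 := order_cuspExpG Γ hΓ.rank 1 (u4G_ne_zero h4)
  rw [order_cuspExpG_u4G h4] at h1
  have hq : (0 : ℤ) < ((cuspM Γ / widthG Γ (QuotientGroup.mk 1) : ℕ) : ℤ) := by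
    exact_mod_cast div_widthG_pos Γ _
  have hM : (0 : ℤ) < (cuspM Γ : ℤ) := by exact_mod_cast cuspM_pos Γ
  unfold cuspPl
  rw [ord_plInfG]
  set o := ordV (cuspPrimeG Γ hΓ.rank (QuotientGroup.mk 1)) (toFanG Γ (u4G h4)) with ho
  constructor
  · intro h
    have : 0 < (cuspM Γ : ℤ) * o4 := by rw [h1]; exact mul_pos hq h
    exact (mul_pos_iff_of_pos_left hM).mp this
  · intro h
    have : 0 < ((cuspM Γ / widthG Γ (QuotientGroup.mk 1) : ℕ) : ℤ) * o := by
      rw [← h1]; exact mul_pos hM h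
    exact (mul_pos_iff_of_pos_left hq).mp this

/-- a function of `WH0 Γ` without zeros on `ℍ` has order `0` at every finite place -/
lemma ordV_eq_zero_of_forall_ne_zero (hΓ : GammaHyp Γ) (t : BG Γ) (ht : ∀ z : ℍ, t.1 z ≠ 0)
    (P : HeightOneSpectrum (BG Γ)) : ordV P (toFanG Γ t) = 0 := by
  have ht0 : t ≠ 0 := by
    intro h
    exact ht UpperHalfPlane.I (congrArg (fun f : BG Γ => f.1 UpperHalfPlane.I) h)
  obtain ⟨z, hz, -⟩ := exists_point_ordAt_eqG (L := FanG Γ) hΓ P
  have hnot : t ∉ P.asIdeal := fun h => ht z ((hz t).mp h)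
  have h1 := le_ordV_algebraMap_iff (L := FanG Γ) P ht0 1
  rw [pow_one] at h1
  have h2 : ¬ ((1 : ℕ) : ℤ) ≤ ordV P (algebraMap (BG Γ) (FanG Γ) t) := fun h => hnot (h1.mp h)
  have h3 := ordV_algebraMap_nonneg (L := FanG Γ) P ht0
  show ordV P (algebraMap (BG Γ) (FanG Γ) t) = 0
  push_cast at h2
  omega

/-- **divisors supported on the zeros of a function without zeros on `ℍ`** -/
theorem exists_fun_of_zeros (hΓ : GammaHyp Γ) {n : ℕ} (hn : 0 < n) (t : BG Γ)
    (ht : ∀ z : ℍ, t.1 z ≠ 0) (D : Divisor ℂ (FanG Γ)) (hdeg : Divisor.degree D = 0)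
    (hsupp : ∀ v : Place ℂ (FanG Γ), D v ≠ 0 → 0 < v.ord (toFanG Γ t))
    (hinf : ¬ 0 < (cuspPl hΓ (QuotientGroup.mk 1)).ord (toFanG Γ t)) :
    ∃ f : FanG Γ, f ≠ 0 ∧ ∀ v : Place ℂ (FanG Γ), (n : ℤ) ∣ D v - v.ord f := by
  apply exists_fun_cuspDiv hΓ hn D hdeg
  · intro v hv
    rcases exists_plFinG_or_plInfG Γ v with ⟨P, rfl⟩ | ⟨Q, rfl⟩
    · exfalso
      have h1 := hsupp _ hv
      rw [ord_plFinG, ordV_eq_zero_of_forall_ne_zero hΓ t ht P] at h1
      exact lt_irrefl _ h1
    · exact ⟨Q, rfl⟩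
  · have h0 : D (cuspPl hΓ (QuotientGroup.mk 1)) = 0 := by
      by_contra hne
      exact hinf (hsupp _ hne)
    rw [h0]
    exact dvd_zero _

end Gamma

/-! ### transport along an isomorphism of function fields -/

section Transport

variable {F F' : Type} [Field F] [Algebra ℂ F] [Field F'] [Algebra ℂ F']

/-- the compatibility of an algebra isomorphism with the structure maps -/
lemma algEquiv_comm (e : F ≃ₐ[ℂ] F') (a : ℂ) :
    e.toRingEquiv (algebraMap ℂ F a) = algebraMap ℂ F' ((RingEquiv.refl ℂ) a) := e.commutes a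

/-- the divisor transported along an isomorphism -/
def divMap (e : F ≃ₐ[ℂ] F') : Divisor ℂ F ≃+ Divisor ℂ F' :=
  Transport.divEquiv (RingEquiv.refl ℂ) e.toRingEquiv (algEquiv_comm e)

lemma degree_divMap (e : F ≃ₐ[ℂ] F') (D : Divisor ℂ F) :
    Divisor.degree (divMap e D) = Divisor.degree D :=
  Transport.degree_divEquiv _ _ _ D

/-- a point of the support of the transported divisor comes from a point of the support -/
lemma exists_of_divMap_ne_zero (e : F ≃ₐ[ℂ] F') (D : Divisor ℂ F) (v' : Place ℂ F')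
    (h : divMap e D v' ≠ 0) :
    ∃ P : Place ℂ F, D P ≠ 0 ∧ ∀ f : F, P.ord f = v'.ord (e f) :=
  ⟨(Transport.placeEquiv (RingEquiv.refl ℂ) e.toRingEquiv (algEquiv_comm e)).symm v', h,
    fun f => Transport.ord_placeEquiv_symm _ _ _ v' f⟩

/-- the conclusion of `BelyiDivAt` is transported back -/
lemma exists_fun_of_divMap (e : F ≃ₐ[ℂ] F') {n : ℕ} (D : Divisor ℂ F)
    (h : ∃ f' : F', f' ≠ 0 ∧ ∀ v' : Place ℂ F', (n : ℤ) ∣ divMap e D v' - v'.ord f') :
    ∃ f : F, f ≠ 0 ∧ ∀ P : Place ℂ F, (n : ℤ) ∣ D P - P.ord f := by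
  obtain ⟨f', hf', hdiv⟩ := h
  refine ⟨e.symm f', fun h0 => hf' ?_, fun P => ?_⟩
  · have := congrArg e h0
    rwa [e.apply_symm_apply, map_zero] at this
  · have h1 := hdiv (Transport.placeMap (RingEquiv.refl ℂ) e.toRingEquiv (algEquiv_comm e) P)
    have h2 : divMap e D (Transport.placeMap (RingEquiv.refl ℂ) e.toRingEquiv (algEquiv_comm e) P)
        = D P := Transport.divEquiv_apply_placeMap _ _ _ D P
    have h3 := Transport.ord_placeMap (RingEquiv.refl ℂ) e.toRingEquiv (algEquiv_comm e) P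
      (e.symm f')
    have h4 : e.toRingEquiv (e.symm f') = f' := e.apply_symm_apply f'
    rw [h4] at h3
    rw [h2, h3] at h1
    exact h1

end Transport

/-! ### the theorem -/

/-- **(U1) over `ℂ`**: on a Belyi curve over `ℂ`, the divisors of degree zero supported on the
zeros of the Belyi function are divisible by `n` modulo principal divisors. -/
theorem belyiDivAt_complex (n : ℕ) (hn : 0 < n) : BelyiDivAt.{0, 0} ℂ n := by
  intro F _ _ β hcov hbr D hdeg hsupp
  haveI := hcov.finite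
  by_cases ho : 0 < o4
  · -- the cusp `∞` is a zero of `u₄`: uniformise `1 - β`
    have hm : (0 : ℕ) < (Polynomial.C (1 : ℂ) - Polynomial.X : Polynomial ℂ).natDegree := by
      have : (Polynomial.C (1 : ℂ) - Polynomial.X : Polynomial ℂ).natDegree = 1 := by
        rw [Polynomial.natDegree_sub_eq_right_of_natDegree_lt] <;> simp
      omega
    have hcov₁ : Belyi.IsCov ℂ (1 - β) := by
      have := hcov.aeval (Polynomial.C (1 : ℂ) - Polynomial.X) hm
      simpa using this
    have hbr₁ : Belyi.BranchSet ℂ (1 - β) ⊆ {0, 1} := by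
      rintro a ⟨P, hP⟩
      have e1 : 1 - β - algebraMap ℂ F a = -(β - algebraMap ℂ F (1 - a)) := by
        rw [map_sub, map_one]
        ring
      have e2 : P.ord (-(β - algebraMap ℂ F (1 - a))) = P.ord (β - algebraMap ℂ F (1 - a)) := by
        simp only [Place.ord, Valuation.map_neg]
      rw [e1, e2] at hP
      have hmem : (1 - a) ∈ Belyi.BranchSet ℂ β := ⟨P, hP⟩
      rcases hbr hmem with h0 | h1
      · right
        rw [Set.mem_singleton_iff]
        linear_combination -h0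
      · left
        rw [Set.mem_singleton_iff] at h1
        linear_combination -h1
    haveI := hcov₁.finite
    obtain ⟨Γ, hfin, e, hΓ, h4, he⟩ := D3.exists_gamma_iso (1 - β) hcov₁.transcendental hbr₁
    have he' : e (1 - β) = toFanG Γ (u4G h4) := he
    set t : BG Γ := 1 - u4G h4 with ht
    have htz : ∀ z : ℍ, t.1 z ≠ 0 := by
      intro z
      show (1 : ℂ) - (u4 : ℍ → ℂ) z ≠ 0
      exact sub_ne_zero.mpr (Ne.symm (u4_ne_one z))
    have het : e β = toFanG Γ t := by
      have h1 : e β = 1 - e (1 - β) := by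
        rw [map_sub, map_one]
        ring
      rw [h1, he', ht]
      show _ = algebraMap (BG Γ) (FanG Γ) (1 - u4G h4)
      rw [map_sub, map_one]
    apply exists_fun_of_divMap e D
    apply exists_fun_of_zeros hΓ hn t htz (divMap e D) ((degree_divMap e D).trans hdeg)
    · intro v' hv'
      obtain ⟨P, hP, hord⟩ := exists_of_divMap_ne_zero e D v' hv'
      rw [← het, ← hord]
      exact hsupp P hP
    · intro hpos
      have hu : 0 < (cuspPl hΓ (QuotientGroup.mk 1)).ord (toFanG Γ (u4G h4)) :=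
        (ord_cuspPl_u4G_pos_iff hΓ h4).mpr ho
      set v := cuspPl hΓ (QuotientGroup.mk 1) with hv
      have h1 : 0 < v.ord (toFanG Γ (u4G h4) - algebraMap ℂ (FanG Γ) 0) := by
        rw [map_zero, sub_zero]
        exact hu
      have h2 : 0 < v.ord (toFanG Γ (u4G h4) - algebraMap ℂ (FanG Γ) 1) := by
        have e1 : toFanG Γ (u4G h4) - algebraMap ℂ (FanG Γ) 1 = -(toFanG Γ t) := by
          rw [ht]
          show _ = -(algebraMap (BG Γ) (FanG Γ) (1 - u4G h4))
          rw [map_sub, map_one, map_one]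
          ring
        have e2 : v.ord (-(toFanG Γ t)) = v.ord (toFanG Γ t) := by
          simp only [Place.ord, Valuation.map_neg]
        rw [e1, e2]
        exact hpos
      exact zero_ne_one (Fermat.Agent.ProgramR.RHLocal.eq_of_ord_sub_pos h1 h2)
  · -- the cusp `∞` is not a zero of `u₄`
    obtain ⟨Γ, hfin, e, hΓ, h4, he⟩ := D3.exists_gamma_iso β hcov.transcendental hbr
    have he' : e β = toFanG Γ (u4G h4) := he
    apply exists_fun_of_divMap e D
    apply exists_fun_of_zeros hΓ hn (u4G h4) (fun z => u4_ne_zero z) (divMap e D)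
      ((degree_divMap e D).trans hdeg)
    · intro v' hv'
      obtain ⟨P, hP, hord⟩ := exists_of_divMap_ne_zero e D v' hv'
      rw [← he', ← hord]
      exact hsupp P hP
    · rw [ord_cuspPl_u4G_pos_iff hΓ h4]
      exact ho

end Fermat.Agent.S15lib.U1

end
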